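/-
CELL-S / GATE-S node [RES] (helper67): **the determinant of a Hecke–Galois datum is cyclotomic**.

For an adic Galois representation `ρ` over a Noetherian local ring `T` whose determinant at
Frobenius lifts at `ℓ ∉ B` (`B` finite, `p ∈ B`) is `ℓ`, the frozen predicate
`GaloisRepAdic.DetIsCyclotomic p` holds: if `σ` acts on `μ_{p^n}` by `μ ↦ μ ^ a` then
`det ρ(σ) - a ∈ (p ^ n)`.

Proof: FL1 (Chebotarev, `GJ/FrobLiftMain`) on the product `(cyc mod p ^ n, ρ mod 𝔪 ^ k)` gives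
`det ρ(σ) - a ∈ (p ^ n) + 𝔪 ^ k` for every `k`; Krull's intersection theorem on `T ⧸ (p ^ n)`.

Consequences:
* `detIsCyclotomic` : `H.ρ.DetIsCyclotomic p` for every `HeckeGaloisRepDatum N S 𝒪 θ T` with
  `S` finite and `p ∈ S` (input of [ALG] of S33, and of the deformation conditions of S54/S59);
* `exists_inertia_isUnit_det_sub_one` : for `p` odd there is `σ₀ ∈ I_P` with
  `det ρ(σ₀) - 1` a unit (the element `σ₀` of `GS/OrdGlue.isOrdinaryAt_of_identities`).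
-/
import Fermat.Agent.GK.Tate.S35Dens
import Fermat.Agent.GL.Local.TameZeta
import Fermat.Prelude.Def_CuspForm_HeckeGaloisRepDatum
import Fermat.Prelude.Def_GaloisRep_LocalConditions

set_option autoImplicit false
set_option linter.unusedSectionVars false

open Polynomial Module IsLocalRing
open Fermat.Agent.Common_helper32 Fermat.Agent.GJ.Tate Fermat.Agent.GK.Tate

namespace Fermat.Agent.GS.DetCyc

section Cyc

variable (p : ℕ) [Fact p.Prime]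

/-- level-`n` uniqueness of the cyclotomic character: if `σ μ = μ ^ a` on `μ_{p^n}` then
`χ_cyc σ ≡ a mod p ^ n`. -/
theorem cycMod_eq_of_forall (n : ℕ) (σ : GQ) (a : ℕ)
    (h : ∀ μ : Qb, μ ^ p ^ n = 1 → σ μ = μ ^ a) :
    ((cycMod p n σ : (ZMod (p ^ n))ˣ) : ZMod (p ^ n)) = (a : ZMod (p ^ n)) := by
  rw [cycMod_apply, cyclotomicCharacter.toZModPow]
  symm
  refine modularCyclotomicCharacter.unique Qb
    (HasEnoughRootsOfUnity.natCard_rootsOfUnity Qb (p ^ n)) (σ : Qb ≃+* Qb)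
    (c := (a : ZMod (p ^ n))) ?_
  intro t ht
  have ht' : (t : Qb) ^ (p ^ n) = 1 := by
    have := (mem_rootsOfUnity _ _).mp ht
    rw [← Units.val_pow_eq_pow_val, this, Units.val_one]
  have h1 := h (t : Qb) ht'
  have h2 : (t : Qb) ^ (a : ZMod (p ^ n)).val = (t : Qb) ^ a := by
    rw [ZMod.val_natCast]
    conv_rhs => rw [← Nat.mod_add_div a (p ^ n)]
    rw [pow_add, pow_mul, ht', one_pow, mul_one]
  rw [h2]
  exact h1

end Cyc

section Krull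

variable {T : Type*} [CommRing T] [IsLocalRing T] [IsNoetherianRing T]

/-- Every ideal of a Noetherian local ring is closed in the `𝔪`-adic topology. -/
theorem mem_of_forall_mem_sup_pow (J : Ideal T) (x : T)
    (h : ∀ k : ℕ, x ∈ J ⊔ maximalIdeal T ^ k) : x ∈ J := by
  have h0 : (Ideal.Quotient.mk J x : T ⧸ J) ∈
      (⨅ k : ℕ, (maximalIdeal T ^ k) • (⊤ : Submodule T (T ⧸ J))) := by
    rw [Submodule.mem_iInf]
    intro k
    obtain ⟨y, hy, z, hz, hyz⟩ := Submodule.mem_sup.mp (h k)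
    have e : (Ideal.Quotient.mk J x : T ⧸ J) = z • (Ideal.Quotient.mk J (1 : T) : T ⧸ J) := by
      rw [← hyz, map_add, Ideal.Quotient.eq_zero_iff_mem.mpr hy, zero_add]
      show _ = Ideal.Quotient.mk J (z • (1 : T))
      rw [smul_eq_mul, mul_one]
    rw [e]
    exact Submodule.smul_mem_smul hz Submodule.mem_top
  rw [Ideal.iInf_pow_smul_eq_bot_of_isLocalRing (maximalIdeal T)
    (maximalIdeal.isMaximal T).ne_top, Submodule.mem_bot] at h0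
  exact Ideal.Quotient.eq_zero_iff_mem.mp h0

end Krull

section Main

variable {p : ℕ} [Fact p.Prime] {T : Type} [CommRing T] [IsLocalRing T]

/-- `p ^ n ∣ a - b` in `ℤ` gives `a - b ∈ (p ^ n)` in `T`. -/
theorem natCast_sub_mem_span_of_zmod_eq {n a b : ℕ}
    (h : (a : ZMod (p ^ n)) = (b : ZMod (p ^ n))) :
    (a : T) - (b : T) ∈ Ideal.span {((p ^ n : ℕ) : T)} := by
  have h5 : (p ^ n : ℤ) ∣ (b : ℤ) - (a : ℤ) := by
    have h6 := (Nat.modEq_iff_dvd).mp ((ZMod.natCast_eq_natCast_iff a b (p ^ n)).mp h)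
    exact_mod_cast h6
  obtain ⟨k, hk⟩ := h5
  have h7 : (a : T) - (b : T) = (-(k : T)) * ((p ^ n : ℕ) : T) := by
    have := congrArg (fun z : ℤ => (z : T)) hk
    simp only [Int.cast_sub, Int.cast_natCast, Int.cast_mul, Int.cast_pow] at this
    rw [Nat.cast_pow, neg_mul, mul_comm, ← this]
    ring
  rw [h7]
  exact Ideal.mul_mem_left _ _ (Ideal.subset_span rfl)

/-- **[RES], abstract form**: if `det ρ(Frob_ℓ) = ℓ` for all `ℓ ∉ B` then `det ρ(σ) ≡ a mod p ^ n`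
as soon as `χ_cyc σ ≡ a mod p ^ n`. -/
theorem det_sub_natCast_mem_span [IsNoetherianRing T] (ρ : GaloisRepAdic T) (B : Finset ℕ)
    (hpB : p ∈ B)
    (hdet : ∀ ℓ : ℕ, ℓ.Prime → ℓ ∉ B → ∀ A : ValuationSubring Qb, A.LiesOverPrime ℓ →
      ∀ τ : GQ, A.IsFrobeniusAt τ ℓ → LinearMap.det (ρ.ρ τ) = (ℓ : T))
    (n : ℕ) (σ : GQ) (a : ℕ)
    (hcyc : ((cycMod p n σ : (ZMod (p ^ n))ˣ) : ZMod (p ^ n)) = (a : ZMod (p ^ n))) :
    LinearMap.det (ρ.ρ σ) - (a : T) ∈ Ideal.span {((p ^ n : ℕ) : T)} := by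
  refine mem_of_forall_mem_sup_pow _ _ (fun k => ?_)
  obtain ⟨ℓ, A, τ, j, hℓ, hℓB, hA, hτ, hpow⟩ :=
    Fermat.Agent.GJ.FrobLift.exists_isFrobeniusAt_pow'
      ((cycMod p n).prod (redRho ρ k))
      (factorsThroughFiniteLevel_prod (cycMod_level p n) (redRho_factors ρ k)) B σ
  rw [MonoidHom.prod_apply, MonoidHom.prod_apply, Prod.pow_mk, Prod.mk.injEq] at hpow
  obtain ⟨h2, h3⟩ := hpow
  have hℓp : ℓ ≠ p := fun h => hℓB (h ▸ hpB)
  -- `ℓ ^ j ≡ a mod p ^ n`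
  have hcycl : ((ℓ ^ j : ℕ) : ZMod (p ^ n)) = (a : ZMod (p ^ n)) := by
    have h4 : ((cycMod p n σ : (ZMod (p ^ n))ˣ) : ZMod (p ^ n)) =
        ((cycMod p n τ ^ j : (ZMod (p ^ n))ˣ) : ZMod (p ^ n)) := congrArg Units.val h2
    rw [hcyc, Units.val_pow_eq_pow_val, cycMod_frob p n A ℓ hℓ hA hℓp τ hτ] at h4
    rw [Nat.cast_pow, ← h4]
  have hlj : ((ℓ ^ j : ℕ) : T) - (a : T) ∈ Ideal.span {((p ^ n : ℕ) : T)} :=
    natCast_sub_mem_span_of_zmod_eq hcycl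
  -- `det ρ(σ) ≡ det ρ(τ) ^ j = ℓ ^ j mod 𝔪 ^ k`
  rw [redRho_apply, redRho_apply] at h3
  have t1 := congrArg Matrix.det h3
  rw [Matrix.det_pow, det_redMat, det_redMat, hdet ℓ hℓ hℓB A hA τ hτ, ← map_pow] at t1
  have hd : LinearMap.det (ρ.ρ σ) - ((ℓ : T)) ^ j ∈ maximalIdeal T ^ k :=
    Ideal.Quotient.eq.mp t1
  have e : LinearMap.det (ρ.ρ σ) - (a : T) =
      (((ℓ ^ j : ℕ) : T) - (a : T)) + (LinearMap.det (ρ.ρ σ) - ((ℓ : T)) ^ j) := by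
    rw [Nat.cast_pow]
    ring
  rw [e]
  exact Submodule.add_mem_sup hlj hd

/-- **[RES], frozen predicate**: `det ρ(Frob_ℓ) = ℓ` for all `ℓ ∉ B ∋ p` gives
`ρ.DetIsCyclotomic p`. -/
theorem detIsCyclotomic_of_det_frob [IsNoetherianRing T] (ρ : GaloisRepAdic T) (B : Finset ℕ)
    (hpB : p ∈ B) (hpT : (p : T) ∈ maximalIdeal T)
    (hdet : ∀ ℓ : ℕ, ℓ.Prime → ℓ ∉ B → ∀ A : ValuationSubring Qb, A.LiesOverPrime ℓ →
      ∀ τ : GQ, A.IsFrobeniusAt τ ℓ → LinearMap.det (ρ.ρ τ) = (ℓ : T)) :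
    ρ.DetIsCyclotomic p :=
  ⟨hpT, fun n σ a h =>
    det_sub_natCast_mem_span ρ B hpB hdet n σ a (cycMod_eq_of_forall p n σ a h)⟩

/-- the same from the characteristic polynomials `X² - t_ℓ X + ℓ`. -/
theorem detIsCyclotomic_of_charpoly_frob [IsNoetherianRing T] (ρ : GaloisRepAdic T)
    (B : Finset ℕ) (hpB : p ∈ B) (hpT : (p : T) ∈ maximalIdeal T) (t : ℕ → T)
    (hfrob : ∀ ℓ : ℕ, ℓ.Prime → ℓ ∉ B → ∀ A : ValuationSubring Qb, A.LiesOverPrime ℓ →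
      ∀ τ : GQ, A.IsFrobeniusAt τ ℓ →
        LinearMap.charpoly (ρ.ρ τ) = X ^ 2 - C (t ℓ) * X + C ((ℓ : T))) :
    ρ.DetIsCyclotomic p :=
  detIsCyclotomic_of_det_frob ρ B hpB hpT fun ℓ hℓ hℓB A hA τ hτ =>
    det_eq_of_charpoly_eq ρ.finrank_eq (ρ.ρ τ) _ _ (hfrob ℓ hℓ hℓB A hA τ hτ)

end Main

section Inertia

variable {T : Type} [CommRing T] [IsLocalRing T]

/-- For `p` odd and `ρ` with cyclotomic determinant there is an inertia element `σ₀` at `P ∣ p`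
with `det ρ(σ₀) - 1` a unit (namely one acting on `μ_p` by squaring). -/
theorem exists_inertia_isUnit_det_sub_one {p : ℕ} (hp : p.Prime) (hp2 : p ≠ 2)
    (ρ : GaloisRepAdic T) (hρ : ρ.DetIsCyclotomic p)
    (P : ValuationSubring Qb) (hP : P.LiesOverPrime p) :
    ∃ σ₀ ∈ P.inertiaSubgroupIn ℚ, IsUnit (LinearMap.det (ρ.ρ σ₀) - 1) ∧
      IsUnit (LinearMap.det (ρ.ρ σ₀)) ∧
      LinearMap.det (ρ.ρ σ₀) - 2 ∈ maximalIdeal T := by
  have : NeZero p := ⟨hp.ne_zero⟩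
  obtain ⟨ζ, hζ⟩ := HasEnoughRootsOfUnity.exists_primitiveRoot Qb p
  have h2 : ¬ p ∣ 2 := fun h => hp2 ((Nat.prime_dvd_prime_iff_eq hp Nat.prime_two).1 h)
  obtain ⟨σ, hσ, hσζ⟩ :=
    Fermat.Agent.GL.Local.InertiaField.exists_mem_inertia_apply_zeta P hp hP hζ h2
  have hμ : ∀ μ : Qb, μ ^ p ^ 1 = 1 → σ μ = μ ^ 2 := by
    intro μ hμ
    rw [pow_one] at hμ
    obtain ⟨i, -, rfl⟩ := hζ.eq_pow_of_pow_eq_one hμ
    rw [map_pow, hσζ, ← pow_mul, ← pow_mul, mul_comm]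
  have hmem : LinearMap.det (ρ.ρ σ) - ((2 : ℕ) : T) ∈ maximalIdeal T := by
    have h3 := hρ.2 1 σ 2 hμ
    rw [pow_one] at h3
    exact (Ideal.span_singleton_le_iff_mem _).mpr hρ.1 h3
  rw [Nat.cast_ofNat] at hmem
  refine ⟨σ, hσ, ?_, ?_, hmem⟩
  · -- `det - 1 = 1 + (det - 2)`
    have e : LinearMap.det (ρ.ρ σ) - 1 = 1 + (LinearMap.det (ρ.ρ σ) - 2) := by ring
    rw [e]
    by_contra hnu
    have h1 : (1 : T) + (LinearMap.det (ρ.ρ σ) - 2) ∈ maximalIdeal T := hnu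
    have h1' : (1 : T) ∈ maximalIdeal T := by
      have h := Ideal.sub_mem _ h1 hmem
      rwa [add_sub_cancel_right] at h
    exact (maximalIdeal.isMaximal T).ne_top ((Ideal.eq_top_iff_one _).mpr h1')
  · have hu : IsUnit (ρ.ρ σ) := by
      refine ⟨⟨ρ.ρ σ, ρ.ρ σ⁻¹, ?_, ?_⟩, rfl⟩
      · rw [← map_mul, mul_inv_cancel, map_one]
      · rw [← map_mul, inv_mul_cancel, map_one]
    exact hu.map LinearMap.det

end Inertia

section Datum

open CuspForm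

variable {p : ℕ} {N : ℕ} [NeZero N] {S : Finset ℕ}
  {𝒪 : Type} [CommRing 𝒪] [IsDomain 𝒪] [IsDiscreteValuationRing 𝒪]
  [IsAdicComplete (IsLocalRing.maximalIdeal 𝒪) 𝒪]
  {θ : CuspForm.heckeAlgebra N 2 (↑S : Set ℕ) →+* IsLocalRing.ResidueField 𝒪}
  {T : Type} [CommRing T] [IsLocalRing T] [IsNoetherianRing T]
  [IsAdicComplete (IsLocalRing.maximalIdeal T) T] [Algebra 𝒪 T] [IsLocalHom (algebraMap 𝒪 T)]
  [Module.Finite 𝒪 T] [Module.Free 𝒪 T]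

/-- `p ∈ 𝔪_𝒪` gives `p ∈ 𝔪_T`. -/
theorem natCast_mem_maximalIdeal (hp𝒪 : (p : 𝒪) ∈ IsLocalRing.maximalIdeal 𝒪) :
    (p : T) ∈ maximalIdeal T := by
  have h := map_nonunit (algebraMap 𝒪 T) (p : 𝒪) hp𝒪
  rwa [map_natCast] at h

/-- **[RES]**: the representation of a Hecke–Galois datum (`S` finite, `p ∈ S`) has cyclotomic
determinant, in the frozen sense. -/
theorem detIsCyclotomic (hp : p.Prime) (hp𝒪 : (p : 𝒪) ∈ IsLocalRing.maximalIdeal 𝒪)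
    (hpS : p ∈ S) (H : CuspForm.HeckeGaloisRepDatum N (↑S : Set ℕ) 𝒪 θ T) :
    H.ρ.DetIsCyclotomic p := by
  have : Fact p.Prime := ⟨hp⟩
  have hN : N ≠ 0 := NeZero.ne N
  refine detIsCyclotomic_of_det_frob H.ρ (S ∪ N.primeFactors) (Finset.mem_union_left _ hpS)
    (natCast_mem_maximalIdeal hp𝒪) ?_
  intro ℓ hℓ hℓB A hA τ hτ
  rw [Finset.mem_union, not_or] at hℓB
  have hℓN : ¬ ℓ ∣ N := fun h => hℓB.2 (Nat.mem_primeFactors.mpr ⟨hℓ, h, hN⟩)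
  have hℓS' : ℓ ∉ (↑S : Set ℕ) := by simpa using hℓB.1
  exact det_eq_of_charpoly_eq H.ρ.finrank_eq (H.ρ.ρ τ) _ _
    (H.charpoly_frob ℓ hℓ hℓN hℓS' A hA τ hτ)

/-- the S33 shape: `p ∣ N` and all primes of `N` in `S`. -/
theorem detIsCyclotomic_of_dvd (hp : p.Prime) (hp𝒪 : (p : 𝒪) ∈ IsLocalRing.maximalIdeal 𝒪)
    (hpN : p ∣ N) (hNS : ∀ q : ℕ, q.Prime → q ∣ N → q ∈ S)
    (H : CuspForm.HeckeGaloisRepDatum N (↑S : Set ℕ) 𝒪 θ T) :
    H.ρ.DetIsCyclotomic p :=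
  detIsCyclotomic hp hp𝒪 (hNS p hp hpN) H

/-- the inertia element `σ₀` of `GS/OrdGlue` for a Hecke–Galois datum, `p` odd. -/
theorem exists_inertia_isUnit_det_sub_one_datum (hp : p.Prime) (hp2 : p ≠ 2)
    (hp𝒪 : (p : 𝒪) ∈ IsLocalRing.maximalIdeal 𝒪) (hpS : p ∈ S)
    (H : CuspForm.HeckeGaloisRepDatum N (↑S : Set ℕ) 𝒪 θ T)
    (P : ValuationSubring Qb) (hP : P.LiesOverPrime p) :
    ∃ σ₀ ∈ P.inertiaSubgroupIn ℚ, IsUnit (LinearMap.det (H.ρ.ρ σ₀) - 1) ∧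
      IsUnit (LinearMap.det (H.ρ.ρ σ₀)) ∧
      LinearMap.det (H.ρ.ρ σ₀) - 2 ∈ maximalIdeal T :=
  exists_inertia_isUnit_det_sub_one hp hp2 H.ρ (detIsCyclotomic hp hp𝒪 hpS H) P hP

end Datum

end Fermat.Agent.GS.DetCyc
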