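/-
CELL-S (S33), node S-OLD, the ORDER-p LEMMA (helper5, board 4789): **a local Δ-stable function
order over an absolutely unramified base on a group killed by `p` (odd) with rational points is
trivial** — "connected + unramified generic fibre ⟹ trivial" for `e = 1`, `p` odd; the only piece of
Raynaud / Tate–Oort that the ordinary-at-`p` argument needs.

`W` a domain, `p` an odd rational prime which is a prime element of `W` with `⋂ pⁿW = 0`
(e.g. `W` a DVR with uniformiser `p`), `Z` an abelian group killed by `p`,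
`H ⊆ Map(Z, W)` a `W`-subalgebra which is Δ-stable (`f (x + y) = ∑ aᵢ x * bᵢ y`, `aᵢ bᵢ ∈ H`) and
LOCAL (`f x ≡ f 0 mod p` for all `f ∈ H`).  Then every `f ∈ H` is constant (`eq_apply_zero`);
hence a separating such `H` forces `Z` to be trivial (`subsingleton_of_sep`).

Proof: cotangent argument.  With `I = {f ∈ H | f 0 = 0}` one has `p • I ⊆ I²` because `[p] = 0` on
`Z` and `[k]^* f ≡ k f mod I²`; if all values of `I` are divisible by `pⁿ`, `n ≥ 1`, then values of
`I²` are divisible by `p²ⁿ`, so values of `I` are divisible by `p²ⁿ⁻¹`; for `n = 1` compare the values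
at `x` and `2x` (additivity mod `p²`) and use that `2` is prime to `p`.  Mathlib only.
-/
import Mathlib

set_option autoImplicit false
set_option linter.unusedSectionVars false

namespace Fermat.Agent.GS.OrderP

open Finset

section

variable {W : Type*} [CommRing W] [IsDomain W]
variable {Z : Type*} [AddCommGroup Z]

/-- Δ-stability of a function algebra. -/
def DeltaStable (H : Subalgebra W (Z → W)) : Prop :=
  ∀ f ∈ H, ∃ (n : ℕ) (a b : Fin n → H), ∀ x y : Z,
    f (x + y) = ∑ i, (a i : Z → W) x * (b i : Z → W) y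

variable (H : Subalgebra W (Z → W))

/-- evaluation at `0`. -/
def ev0 : H →ₐ[W] W := (Pi.evalAlgHom W (fun _ : Z => W) 0).comp H.val

@[simp] theorem ev0_apply (f : H) : ev0 H f = f.1 0 := rfl

/-- the augmentation ideal. -/
def aug : Ideal H := RingHom.ker (ev0 H)

theorem mem_aug {f : H} : f ∈ aug H ↔ f.1 0 = 0 := by
  rw [aug, RingHom.mem_ker]
  rfl

variable {H}

/-- `f - f 0 ∈ aug`. -/
theorem sub_const_mem_aug (f : H) : f - algebraMap W H (f.1 0) ∈ aug H := by
  rw [mem_aug]
  change f.1 0 - (algebraMap W (Z → W) (f.1 0)) 0 = 0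
  rw [Pi.algebraMap_apply, Algebra.algebraMap_self, RingHom.id_apply, sub_self]

variable (hΔ : DeltaStable H)
include hΔ

/-- `H` is stable under the pull-back along multiplication by `k`. -/
theorem nsmul_pull_mem (k : ℕ) : ∀ f ∈ H, (fun x : Z => f (k • x)) ∈ H := by
  induction k with
  | zero =>
    intro f _
    have : (fun x : Z => f (0 • x)) = algebraMap W (Z → W) (f 0) := by
      funext x
      rw [zero_smul, Pi.algebraMap_apply, Algebra.algebraMap_self, RingHom.id_apply]
    rw [this]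
    exact H.algebraMap_mem _
  | succ k ih =>
    intro f hf
    obtain ⟨m, a, b, hab⟩ := hΔ f hf
    have : (fun x : Z => f ((k + 1) • x))
        = ∑ i, (fun x : Z => (a i : Z → W) (k • x)) * (b i : Z → W) := by
      funext x
      rw [succ_nsmul, hab, Finset.sum_apply]
      rfl
    rw [this]
    exact H.sum_mem fun i _ => H.mul_mem (ih _ (a i).2) (b i).2

/-- the pull-back along `[k]` as an element of `H`. -/
def pull (k : ℕ) (f : H) : H := ⟨fun x => f.1 (k • x), nsmul_pull_mem hΔ k f.1 f.2⟩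

theorem pull_apply (k : ℕ) (f : H) (x : Z) : (pull hΔ k f).1 x = f.1 (k • x) := rfl

theorem pull_mem_aug (k : ℕ) {f : H} (hf : f ∈ aug H) : pull hΔ k f ∈ aug H := by
  rw [mem_aug] at hf ⊢
  rw [pull_apply, smul_zero, hf]

/-- **the normalised comultiplication**: `f (x + y) - f x - f y = ∑ a'ᵢ x * b'ᵢ y` with
`a'ᵢ, b'ᵢ` in the augmentation ideal. -/
theorem exists_aug_delta {f : H} (hf : f ∈ aug H) :
    ∃ (n : ℕ) (a b : Fin n → H), (∀ i, a i ∈ aug H) ∧ (∀ i, b i ∈ aug H) ∧ ∀ x y : Z,
      f.1 (x + y) - f.1 x - f.1 y = ∑ i, (a i).1 x * (b i).1 y := by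
  rw [mem_aug] at hf
  obtain ⟨n, a, b, hab⟩ := hΔ f.1 f.2
  refine ⟨n, fun i => a i - algebraMap W H ((a i).1 0), fun i => b i - algebraMap W H ((b i).1 0),
    fun i => sub_const_mem_aug _, fun i => sub_const_mem_aug _, fun x y => ?_⟩
  have e1 : ∀ (g : H) (z : Z), (g - algebraMap W H (g.1 0)).1 z = g.1 z - g.1 0 := by
    intro g z
    change g.1 z - (algebraMap W (Z → W) (g.1 0)) z = _
    rw [Pi.algebraMap_apply, Algebra.algebraMap_self, RingHom.id_apply]
  have h1 := hab x y
  have h2 := hab x 0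
  have h3 := hab 0 y
  have h4 := hab 0 0
  rw [add_zero] at h2 h4
  rw [zero_add] at h3
  simp only [e1]
  have : ∑ i, ((a i).1 x - (a i).1 0) * ((b i).1 y - (b i).1 0)
      = ∑ i, (a i).1 x * (b i).1 y - ∑ i, (a i).1 x * (b i).1 0
        - ∑ i, (a i).1 0 * (b i).1 y + ∑ i, (a i).1 0 * (b i).1 0 := by
    rw [← Finset.sum_sub_distrib, ← Finset.sum_sub_distrib, ← Finset.sum_add_distrib]
    refine Finset.sum_congr rfl fun i _ => ?_
    ring
  rw [this, ← h1, ← h2, ← h3, ← h4, hf]
  ring

/-- `[k]^* f ≡ k f` modulo the square of the augmentation ideal. -/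
theorem pull_sub_nsmul_mem (k : ℕ) : ∀ f ∈ aug H, pull hΔ k f - k • f ∈ aug H ^ 2 := by
  induction k with
  | zero =>
    intro f hf
    have : pull hΔ 0 f - 0 • f = 0 := by
      rw [zero_smul, sub_zero]
      apply Subtype.ext
      funext x
      rw [pull_apply, zero_smul, (mem_aug H).mp hf]
      rfl
    rw [this]
    exact Submodule.zero_mem _
  | succ k ih =>
    intro f hf
    obtain ⟨n, a, b, ha, hb, hab⟩ := exists_aug_delta hΔ hf
    have key : pull hΔ (k + 1) f - (k + 1) • f
        = (pull hΔ k f - k • f) + ∑ i, pull hΔ k (a i) * b i := by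
      apply Subtype.ext
      funext x
      have h1 := hab (k • x) x
      have e2 : ((pull hΔ k f - k • f) + ∑ i, pull hΔ k (a i) * b i).1 x
          = (f.1 (k • x) - k • f.1 x) + ∑ i, (a i).1 (k • x) * (b i).1 x := by
        change ((pull hΔ k f - k • f : H) : Z → W) x + ((∑ i, pull hΔ k (a i) * b i : H) : Z → W) x
          = _
        rw [AddSubmonoidClass.coe_finsetSum, Finset.sum_apply]
        rfl
      have e3 : (pull hΔ (k + 1) f - (k + 1) • f).1 x = f.1 ((k + 1) • x) - (k + 1) • f.1 x := rfl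
      rw [e2, e3, ← h1, succ_nsmul, succ_nsmul]
      ring
    rw [key]
    refine Ideal.add_mem _ (ih f hf) (Ideal.sum_mem _ fun i _ => ?_)
    rw [pow_two]
    exact Ideal.mul_mem_mul (pull_mem_aug hΔ k (ha i)) (hb i)

end

section Main

variable {W : Type*} [CommRing W] [IsDomain W]
variable {Z : Type*} [AddCommGroup Z]
variable {H : Subalgebra W (Z → W)}
variable (hΔ : DeltaStable H) (p : ℕ) (hp : Prime (p : W)) (hp2 : ¬ (p : W) ∣ 2)
variable (hZ : ∀ z : Z, p • z = 0)

include hΔ hZ in
/-- `p • aug ⊆ aug²`: the cotangent space is killed by `p`, because `[p] = 0`. -/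
theorem natCast_smul_mem_sq {f : H} (hf : f ∈ aug H) : p • f ∈ aug H ^ 2 := by
  have h1 := pull_sub_nsmul_mem hΔ p f hf
  have h2 : pull hΔ p f = 0 := by
    apply Subtype.ext
    funext x
    rw [pull_apply, hZ, (mem_aug H).mp hf]
    rfl
  rw [h2, zero_sub] at h1
  exact (neg_mem_iff (H := aug H ^ 2)).mp h1

/-- all values of the augmentation ideal are divisible by `p ^ n`. -/
def Dv (H : Subalgebra W (Z → W)) (p : ℕ) (n : ℕ) : Prop :=
  ∀ f ∈ aug H, ∀ z : Z, (p : W) ^ n ∣ f.1 z

/-- values of `aug²` are divisible by `p ^ (2n)`. -/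
theorem dvd_of_mem_sq {n : ℕ} (h : Dv H p n) {u : H} (hu : u ∈ aug H ^ 2) (z : Z) :
    (p : W) ^ (2 * n) ∣ u.1 z := by
  rw [pow_two] at hu
  refine Submodule.smul_induction_on hu ?_ ?_
  · intro g hg k hk
    have : (g • k : H).1 z = g.1 z * k.1 z := rfl
    rw [this, two_mul, pow_add]
    exact mul_dvd_mul (h g hg z) (h k hk z)
  · intro a b ha hb
    have : (a + b : H).1 z = a.1 z + b.1 z := rfl
    rw [this]
    exact dvd_add ha hb

include hΔ in
/-- elements of `aug` are additive modulo `p ^ (2n)`. -/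
theorem dvd_add_sub {n : ℕ} (h : Dv H p n) {f : H} (hf : f ∈ aug H) (x y : Z) :
    (p : W) ^ (2 * n) ∣ f.1 (x + y) - f.1 x - f.1 y := by
  obtain ⟨m, a, b, ha, hb, hab⟩ := exists_aug_delta hΔ hf
  rw [hab]
  refine Finset.dvd_sum fun i _ => ?_
  rw [two_mul, pow_add]
  exact mul_dvd_mul (h _ (ha i) x) (h _ (hb i) y)

include hΔ hZ hp in
/-- the step `n ≥ 2`. -/
theorem dv_step_of_two_le {n : ℕ} (hn : 2 ≤ n) (h : Dv H p n) : Dv H p (n + 1) := by
  intro f hf z
  have h1 := dvd_of_mem_sq p h (natCast_smul_mem_sq hΔ p hZ hf) z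
  have h2 : (p • f : H).1 z = (p : W) * f.1 z := by
    change (p • f.1) z = _
    rw [Pi.smul_apply, nsmul_eq_mul]
  rw [h2] at h1
  have h3 : 2 * n = (n + 1) + 1 + (n - 2) := by omega
  have h4 : (p : W) ^ ((n + 1) + 1) ∣ (p : W) * f.1 z :=
    dvd_trans (pow_dvd_pow _ (by omega)) h1
  rw [pow_succ, mul_comm] at h4
  exact (mul_dvd_mul_iff_left hp.ne_zero).mp h4

include hΔ hZ hp hp2 in
/-- the step `n = 1`: compare the values at `x` and `2x`. -/
theorem dv_step_one (h : Dv H p 1) : Dv H p 2 := by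
  intro f hf x
  -- the property `p³ ∣ u (2x) - 4 u x` on `aug²`
  have hC : ∀ u ∈ aug H ^ 2, (p : W) ^ 3 ∣ u.1 (x + x) - 4 * u.1 x := by
    intro u hu
    rw [pow_two] at hu
    refine Submodule.smul_induction_on hu ?_ ?_
    · intro g hg k hk
      have e : (g • k : H).1 (x + x) - 4 * (g • k : H).1 x
          = g.1 (x + x) * k.1 (x + x) - 4 * (g.1 x * k.1 x) := rfl
      rw [e]
      obtain ⟨r, hr⟩ := dvd_add_sub hΔ p h hg x x
      obtain ⟨s, hs⟩ := dvd_add_sub hΔ p h hk x x
      obtain ⟨γ, hγ⟩ := h g hg x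
      obtain ⟨η, hη⟩ := h k hk x
      have eg : g.1 (x + x) = 2 * g.1 x + (p : W) ^ (2 * 1) * r := by
        rw [← hr]; ring
      have ek : k.1 (x + x) = 2 * k.1 x + (p : W) ^ (2 * 1) * s := by
        rw [← hs]; ring
      rw [eg, ek, hγ, hη]
      refine ⟨2 * γ * s + 2 * η * r + (p : W) * r * s, ?_⟩
      ring
    · intro a b ha hb
      have e : (a + b : H).1 (x + x) - 4 * (a + b : H).1 x
          = (a.1 (x + x) - 4 * a.1 x) + (b.1 (x + x) - 4 * b.1 x) := by
        change (a.1 (x + x) + b.1 (x + x)) - 4 * (a.1 x + b.1 x) = _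
        ring
      rw [e]
      exact dvd_add ha hb
  have h1 := hC _ (natCast_smul_mem_sq hΔ p hZ hf)
  have h2 : ∀ z, (p • f : H).1 z = (p : W) * f.1 z := by
    intro z
    change (p • f.1) z = _
    rw [Pi.smul_apply, nsmul_eq_mul]
  rw [h2, h2] at h1
  have h3 : (p : W) * f.1 (x + x) - 4 * ((p : W) * f.1 x)
      = (p : W) * (f.1 (x + x) - 4 * f.1 x) := by ring
  rw [h3, pow_succ, mul_comm] at h1
  have h4 : (p : W) ^ 2 ∣ f.1 (x + x) - 4 * f.1 x := (mul_dvd_mul_iff_left hp.ne_zero).mp h1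
  have h5 := dvd_add_sub hΔ p h hf x x
  have h6 : (p : W) ^ 2 ∣ 2 * f.1 x := by
    have : 2 * f.1 x = (f.1 (x + x) - f.1 x - f.1 x) - (f.1 (x + x) - 4 * f.1 x) := by ring
    rw [this]
    exact dvd_sub h5 h4
  exact hp.pow_dvd_of_dvd_mul_left 2 hp2 h6

include hΔ hZ hp hp2 in
/-- all values of `aug` are divisible by every power of `p`. -/
theorem dv_all (h1 : Dv H p 1) : ∀ n, 1 ≤ n → Dv H p n := by
  intro n hn
  induction n with
  | zero => omega
  | succ n ih =>
    rcases Nat.lt_or_ge n 1 with h0 | h0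
    · have : n = 0 := by omega
      subst this
      exact h1
    · have hn' := ih h0
      rcases Nat.lt_or_ge n 2 with h2 | h2
      · have : n = 1 := by omega
        subst this
        exact dv_step_one hΔ p hp hp2 hZ hn'
      · exact dv_step_of_two_le hΔ p hp hZ h2 hn'

include hΔ hZ hp hp2 in
/-- **The order-`p` lemma.** A local Δ-stable function order on a group killed by the odd prime `p`,
over a domain in which `p` is a prime element with `⋂ pⁿ = 0`, consists of constant functions. -/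
theorem eq_apply_zero (hsep : ∀ w : W, (∀ n, (p : W) ^ n ∣ w) → w = 0)
    (hloc : ∀ f ∈ H, ∀ x : Z, (p : W) ∣ f x - f 0) (f : Z → W) (hf : f ∈ H) (x : Z) :
    f x = f 0 := by
  have h1 : Dv H p 1 := by
    intro g hg z
    have := hloc g.1 g.2 z
    rw [(mem_aug H).mp hg, sub_zero] at this
    rw [pow_one]
    exact this
  have hall := dv_all hΔ p hp hp2 hZ h1
  have hg := sub_const_mem_aug (⟨f, hf⟩ : H)
  have h2 : (⟨f, hf⟩ - algebraMap W H (f 0) : H).1 x = f x - f 0 := by
    change f x - (algebraMap W (Z → W) (f 0)) x = _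
    rw [Pi.algebraMap_apply, Algebra.algebraMap_self, RingHom.id_apply]
  have h3 : f x - f 0 = 0 := by
    apply hsep
    intro n
    rcases Nat.eq_zero_or_pos n with h0 | h0
    · subst h0
      rw [pow_zero]
      exact one_dvd _
    · rw [← h2]
      exact hall n h0 _ hg x
  exact sub_eq_zero.mp h3

include hΔ hZ hp hp2 in
/-- A local Δ-stable *separating* function order forces the group to be trivial: over an
absolutely unramified base, a nonzero group killed by `p` with rational points has no connected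
finite flat model (`p` odd). -/
theorem subsingleton_of_sep (hsep : ∀ w : W, (∀ n, (p : W) ^ n ∣ w) → w = 0)
    (hloc : ∀ f ∈ H, ∀ x : Z, (p : W) ∣ f x - f 0)
    (hpts : ∀ x y : Z, x ≠ y → ∃ f ∈ H, f x ≠ f y) : Subsingleton Z := by
  refine ⟨fun x y => ?_⟩
  by_contra hxy
  obtain ⟨f, hf, hne⟩ := hpts x y hxy
  apply hne
  rw [eq_apply_zero hΔ p hp hp2 hZ hsep hloc f hf x, eq_apply_zero hΔ p hp hp2 hZ hsep hloc f hf y]

end Main

section DVR

/-- in a noetherian domain, an element divisible by all powers of a non-unit is zero. -/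
theorem eq_zero_of_forall_pow_dvd {W : Type*} [CommRing W] [IsDomain W] [IsNoetherianRing W]
    {π : W} (hπ : ¬ IsUnit π) (w : W) (h : ∀ n, π ^ n ∣ w) : w = 0 := by
  have h1 : (⨅ i : ℕ, (Ideal.span {π}) ^ i) = ⊥ :=
    Ideal.iInf_pow_eq_bot_of_isDomain _ (by
      rw [Ne, Ideal.span_singleton_eq_top]
      exact hπ)
  have h2 : w ∈ ⨅ i : ℕ, (Ideal.span {π}) ^ i := by
    rw [Ideal.mem_iInf]
    intro i
    rw [Ideal.span_singleton_pow, Ideal.mem_span_singleton]
    exact h i
  rw [h1] at h2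
  exact h2

end DVR

end Fermat.Agent.GS.OrderP
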