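/-
ZERO-REGRET ORPHAN for a future S33 gate (helper65): **gluing of the ordinary line**.
`A` a local ring, `V` free of rank `2`, `f : End V` with `det f = c` a unit, `c - 1` a unit and
`(f - 1)(f - c) = 0`.  Then `range (f - 1) = ker (f - c)` is a free direct summand of rank one:
`∃ b : Basis (Fin 2) A V, range (f - 1) = A ∙ b 0`.
Consequence (`isOrdinaryAt_of_identities`): the frozen `GaloisRepAdic.IsOrdinaryAt` follows from
closed identities on `ρ` at ONE inertia element `σ₀` with `ε(σ₀) - 1` a unit: these identities can be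
checked after any injective base change (e.g. `T ↪ T ⊗ K = ∏ K_f`, componentwise on eigenforms).
-/
import Mathlib
import Fermat.Prelude.Def_GaloisRep_LocalConditions

set_option autoImplicit false
set_option linter.unusedSectionVars false

namespace Fermat.Agent.GS.OrdGlue

section Idem

variable {A : Type*} [CommRing A] [IsLocalRing A] {V : Type*} [AddCommGroup V] [Module A V]
  [Module.Free A V] [Module.Finite A V]

theorem range_unit_smul (a : Aˣ) (g : Module.End A V) :
    LinearMap.range ((a : A) • g) = LinearMap.range g := by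
  ext x
  constructor
  · rintro ⟨y, rfl⟩
    exact ⟨(a : A) • y, by simp⟩
  · rintro ⟨y, rfl⟩
    refine ⟨((a⁻¹ : Aˣ) : A) • y, ?_⟩
    simp [smul_smul]

theorem ker_unit_smul (a : Aˣ) (g : Module.End A V) :
    LinearMap.ker ((a : A) • g) = LinearMap.ker g := by
  ext x
  simp only [LinearMap.mem_ker, LinearMap.smul_apply]
  constructor
  · intro h
    have := congrArg (fun z => ((a⁻¹ : Aˣ) : A) • z) h
    simpa [smul_smul] using this
  · intro h
    rw [h, smul_zero]

theorem exists_basis_range_sub_one (hV : Module.finrank A V = 2) (f : Module.End A V) (c : A)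
    (hc : IsUnit (c - 1)) (hcu : IsUnit c) (hdet : LinearMap.det f = c)
    (hq : (f - 1) * (f - c • 1) = 0) :
    ∃ b : Module.Basis (Fin 2) A V, LinearMap.range (f - 1) = A ∙ b 0 := by
  classical
  obtain ⟨u, hu⟩ := hc
  -- `(f - 1) f = c (f - 1)`
  have h2 : (f - 1) * f = c • (f - 1) := by
    have : (f - 1) * (f - c • 1) = (f - 1) * f - c • (f - 1) := by
      rw [mul_sub, mul_smul_comm, mul_one]
    rw [this] at hq
    exact sub_eq_zero.mp hq
  have h2' : f * (f - 1) = c • (f - 1) := by
    rw [← h2, mul_sub, sub_mul, mul_one, one_mul]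
  have h1 : (f - 1) * (f - 1) = (c - 1) • (f - 1) := by
    rw [mul_sub, mul_one, h2, sub_smul, one_smul]
  set e : Module.End A V := ((u⁻¹ : Aˣ) : A) • (f - 1) with he_def
  have he : IsIdempotentElem e := by
    show e * e = e
    rw [he_def, smul_mul_smul_comm, h1, ← hu, smul_smul, mul_assoc, Units.inv_mul, mul_one]
  have hrange : LinearMap.range e = LinearMap.range (f - 1) := range_unit_smul _ _
  have hker : LinearMap.ker e = LinearMap.ker (f - 1) := ker_unit_smul _ _
  have hcompl : IsCompl (LinearMap.range e) (LinearMap.ker e) :=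
    LinearMap.IsIdempotentElem.isCompl he
  -- `f` acts by `c` on `L = range e` and by `1` on `K = ker e`
  have hfL : ∀ x ∈ LinearMap.range e, f x = c • x := by
    intro x hx
    rw [hrange] at hx
    obtain ⟨y, rfl⟩ := hx
    have := congrArg (fun g : Module.End A V => g y) h2'
    simpa using this
  have hfK : ∀ x ∈ LinearMap.ker e, f x = x := by
    intro x hx
    rw [hker, LinearMap.mem_ker, LinearMap.sub_apply, Module.End.one_apply, sub_eq_zero] at hx
    exact hx
  -- structure of `L`, `K`
  have hprojL : Module.Projective A (LinearMap.range e) :=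
    Module.Projective.of_split (LinearMap.range e).subtype
      (Submodule.projectionOnto _ _ hcompl)
      (Submodule.projectionOnto_comp_subtype hcompl)
  have hprojK : Module.Projective A (LinearMap.ker e) :=
    Module.Projective.of_split (LinearMap.ker e).subtype
      (Submodule.projectionOnto _ _ hcompl.symm)
      (Submodule.projectionOnto_comp_subtype hcompl.symm)
  have hfinL : Module.Finite A (LinearMap.range e) := Module.Finite.of_surjective
    (Submodule.projectionOnto _ _ hcompl) (Submodule.projectionOnto_surjective hcompl)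
  have hfinK : Module.Finite A (LinearMap.ker e) := Module.Finite.of_surjective
    (Submodule.projectionOnto _ _ hcompl.symm)
    (Submodule.projectionOnto_surjective hcompl.symm)
  have hfreeL : Module.Free A (LinearMap.range e) := Module.free_of_flat_of_isLocalRing
  have hfreeK : Module.Free A (LinearMap.ker e) := Module.free_of_flat_of_isLocalRing
  let E : (LinearMap.range e × LinearMap.ker e) ≃ₗ[A] V :=
    Submodule.prodEquivOfIsCompl _ _ hcompl
  have hrk : Module.finrank A (LinearMap.range e) + Module.finrank A (LinearMap.ker e) = 2 := by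
    rw [← Module.finrank_prod, LinearEquiv.finrank_eq E, hV]
  -- the determinant
  have hconj : f = E.conj ((c • (1 : Module.End A (LinearMap.range e))).prodMap
      (1 : Module.End A (LinearMap.ker e))) := by
    apply LinearMap.ext
    intro x
    obtain ⟨⟨l, k⟩, rfl⟩ := E.surjective x
    rw [LinearEquiv.conj_apply, LinearMap.comp_apply, LinearMap.comp_apply,
      LinearEquiv.coe_coe, LinearEquiv.coe_coe, LinearEquiv.symm_apply_apply]
    show f ((l : V) + (k : V)) = ((c • l : LinearMap.range e) : V) + (k : V)
    rw [map_add, hfL l l.2, hfK k k.2]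
    rfl
  have hdet2 : c = c ^ Module.finrank A (LinearMap.range e) := by
    conv_lhs => rw [← hdet, hconj]
    rw [LinearEquiv.conj_apply, LinearMap.comp_assoc, LinearMap.det_conj, LinearMap.det_prodMap,
      LinearMap.det_smul, map_one, map_one, mul_one, mul_one]
  have hne : (1 : A) ≠ 0 := one_ne_zero
  have hr1 : Module.finrank A (LinearMap.range e) = 1 := by
    have hle : Module.finrank A (LinearMap.range e) ≤ 2 := by omega
    interval_cases hr : Module.finrank A (LinearMap.range e)
    · exfalso
      rw [pow_zero] at hdet2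
      have : (u : A) = 0 := by rw [hu, hdet2, sub_self]
      exact u.ne_zero this
    · rfl
    · exfalso
      have h0 : c * (u : A) = 0 := by
        rw [hu]
        linear_combination (-1 : A) * hdet2
      have hc0 : c = 0 := by
        have := congrArg (fun z => z * ((u⁻¹ : Aˣ) : A)) h0
        simpa [mul_assoc] using this
      rw [hc0] at hcu
      exact not_isUnit_zero hcu
  have hs1 : Module.finrank A (LinearMap.ker e) = 1 := by omega
  -- bases
  let bL : Module.Basis (Fin 1) A (LinearMap.range e) := Module.finBasisOfFinrankEq A _ hr1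
  let bK : Module.Basis (Fin 1) A (LinearMap.ker e) := Module.finBasisOfFinrankEq A _ hs1
  let b : Module.Basis (Fin 2) A V := ((bL.prod bK).map E).reindex finSumFinEquiv
  refine ⟨b, ?_⟩
  have hb0 : b 0 = ((bL 0 : LinearMap.range e) : V) := by
    have h0 : (0 : Fin 2) = (finSumFinEquiv (m := 1) (n := 1)) (Sum.inl (0 : Fin 1)) := by
      rw [finSumFinEquiv_apply_left]; rfl
    rw [h0]
    simp only [b, Module.Basis.reindex_apply, Equiv.symm_apply_apply, Module.Basis.map_apply,
      Module.Basis.prod_apply, Sum.elim_inl, Function.comp_apply, LinearMap.inl_apply]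
    show ((bL 0 : LinearMap.range e) : V) + ((0 : LinearMap.ker e) : V) = _
    simp
  rw [← hrange, hb0]
  apply le_antisymm
  · intro x hx
    have hx' : (⟨x, hx⟩ : LinearMap.range e) ∈ Submodule.span A (Set.range bL) := by
      rw [bL.span_eq]; trivial
    rw [Set.range_unique, Submodule.mem_span_singleton] at hx'
    obtain ⟨a, ha⟩ := hx'
    rw [Submodule.mem_span_singleton]
    exact ⟨a, by have := congrArg Subtype.val ha; simpa using this⟩
  · rw [Submodule.span_singleton_le_iff_mem]
    exact (bL 0).2

omit [IsLocalRing A] [Module.Free A V] [Module.Finite A V] in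
/-- `range (f - 1) = ker (f - c)` when `(f - 1)(f - c) = 0` and `c - 1` is a unit. -/
theorem range_sub_one_eq_ker (f : Module.End A V) (c : A) (hc : IsUnit (c - 1))
    (hq : (f - 1) * (f - c • 1) = 0) :
    LinearMap.range (f - 1) = LinearMap.ker (f - c • 1) := by
  obtain ⟨u, hu⟩ := hc
  have hq' : (f - c • 1) * (f - 1) = 0 := by
    rw [← hq]
    simp only [mul_sub, sub_mul, mul_one, one_mul, smul_mul_assoc, mul_smul_comm, smul_sub]
    abel
  ext x
  constructor
  · rintro ⟨y, rfl⟩
    rw [LinearMap.mem_ker]
    have := congrArg (fun g : Module.End A V => g y) hq'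
    simpa using this
  · intro hx
    rw [LinearMap.mem_ker, LinearMap.sub_apply, LinearMap.smul_apply, Module.End.one_apply,
      sub_eq_zero] at hx
    refine ⟨((u⁻¹ : Aˣ) : A) • x, ?_⟩
    rw [LinearMap.sub_apply, Module.End.one_apply, map_smul, hx, ← smul_sub]
    have e : c • x - x = (u : A) • x := by rw [hu, sub_smul, one_smul]
    rw [e, smul_smul, Units.inv_mul, one_smul]

end Idem

section Ordinary

variable {A : Type} [CommRing A] [IsLocalRing A]

/-- **ORD-GLUE**: the frozen `IsOrdinaryAt` from closed identities at one inertia element. -/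
theorem isOrdinaryAt_of_identities (ρ : GaloisRepAdic A) (p : ℕ)
    (h : ∀ P : ValuationSubring (AlgebraicClosure ℚ), P.LiesOverPrime p →
      ∃ σ₀ ∈ P.inertiaSubgroupIn ℚ, ∃ c : A, IsUnit (c - 1) ∧ IsUnit c ∧
        LinearMap.det (ρ.ρ σ₀) = c ∧
        (ρ.ρ σ₀ - 1) * (ρ.ρ σ₀ - c • 1) = 0 ∧
        (∀ τ ∈ P.decompositionSubgroup ℚ, (ρ.ρ σ₀ - c • 1) * ρ.ρ τ * (ρ.ρ σ₀ - 1) = 0) ∧
        (∀ σ ∈ P.inertiaSubgroupIn ℚ, (ρ.ρ σ₀ - c • 1) * (ρ.ρ σ - 1) = 0)) :
    ρ.IsOrdinaryAt p := by
  intro P hP
  obtain ⟨σ₀, -, c, hc1, hcu, hdet, hq, hD, hI⟩ := h P hP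
  obtain ⟨b, hb⟩ := exists_basis_range_sub_one ρ.finrank_eq (ρ.ρ σ₀) c hc1 hcu hdet hq
  have hrk := range_sub_one_eq_ker (ρ.ρ σ₀) c hc1 hq
  refine ⟨LinearMap.range (ρ.ρ σ₀ - 1), ⟨b, hb⟩, ?_, ?_⟩
  · rintro τ hτ _ ⟨y, rfl⟩
    rw [hrk, LinearMap.mem_ker]
    have := congrArg (fun g : Module.End A ρ.V => g y) (hD τ hτ)
    simpa using this
  · intro σ hσ v
    rw [hrk, LinearMap.mem_ker]
    have := congrArg (fun g : Module.End A ρ.V => g v) (hI σ hσ)
    simpa using this

end Ordinary

end Fermat.Agent.GS.OrdGlue
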