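/-
CELL-S / (ALG-UNIFORM) core (helper65; helper60 board 4856 (1)), COUNT-FREE.

`A` a noetherian local ring, henselian at its maximal ideal `𝔪`, `V` free of rank `2`,
`f : End V` (think `f = ρ(σ₀)`, `σ₀` an inertia element) with `det f` a unit, `det f - 1` a unit and
`det (f - 1) ∈ 𝔪` (residual eigenvalues `1` and `c̄ = det f̄ ≠ 1`), `L ≤ V` a submodule with
`range (f - 1) ≤ L` (think `L = span {ρ(σ) v - v : σ ∈ I_P}`).

* `exists_basis_of_inj` : if `f - 1` is injective on the image of `L` in every `V / 𝔪ⁿ V`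
  (hypothesis `(INJ)`), then `L = A ∙ b 0` for a basis `b` of `V`.
  Proof: Cayley–Hamilton + Hensel: `(f - α)(f - β) = 0`, `α ≡ 1`, `β - α` a unit, so
  `V = K ⊕ R`, `K = ker (f - α)`, `R = range (f - α) = ker (f - β)`; `R ≤ L` (as `β - 1` is a unit)
  and `L ∩ K = 0` by `(INJ)` + Krull, hence `L = R`, a free rank-one direct summand
  (`GS/OrdGlue.exists_basis_range_sub_one` applied to `α⁻¹ f`).
* `inj_of_noTrivial` : `(INJ)` from the residual shape
  (`∃ v₀, ∀ σ ∈ I, ρ(σ) v - v ∈ A v₀ + 𝔪 V`) and **(NT)**: no nonzero `I`-trivial subquotient `Y / Y'`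
  of the image of `L` in `V / 𝔪ⁿ V` (`Y' ≤ Y` submodules, `𝔪ⁿ V ≤ Y' ≤ Y ≤ L + 𝔪ⁿ V`).
* `isOrdinaryAt_of_inj`, `isOrdinaryAt_of_noTrivial` : the frozen `GaloisRepAdic.IsOrdinaryAt`.
-/
import Mathlib
import Fermat.Prelude.Def_GaloisRep_LocalConditions
import Fermat.Agent.GS.OrdGlue

set_option autoImplicit false
set_option linter.unusedSectionVars false

namespace Fermat.Agent.GS.AlgUniform

open IsLocalRing Polynomial

section Mat

variable {A : Type*} [CommRing A] [IsLocalRing A] {V : Type*} [AddCommGroup V] [Module A V]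
  [Module.Free A V] [Module.Finite A V]

/-- coordinates of an element of `I • ⊤` lie in `I` -/
theorem repr_mem_of_mem_smul_top {ι : Type*} (b : Module.Basis ι A V) (I : Ideal A) {m : V}
    (hm : m ∈ I • (⊤ : Submodule A V)) (i : ι) : b.repr m i ∈ I := by
  refine Submodule.smul_induction_on hm ?_ ?_
  · intro r hr n _
    rw [map_smul, Finsupp.smul_apply, smul_eq_mul]
    exact I.mul_mem_right _ hr
  · intro x y hx hy
    rw [map_add, Finsupp.add_apply]
    exact I.add_mem hx hy

/-- an endomorphism of a free module of rank two whose image lies in `A v₀ + I V` has determinant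
in `I` -/
theorem det_mem_of_range_le (hV : Module.finrank A V = 2) (I : Ideal A) (g : Module.End A V) (v₀ : V)
    (h : ∀ v, ∃ a : A, g v - a • v₀ ∈ I • (⊤ : Submodule A V)) :
    LinearMap.det g ∈ I := by
  classical
  let b : Module.Basis (Fin 2) A V := Module.finBasisOfFinrankEq A V hV
  rw [← LinearMap.det_toMatrix b g, Matrix.det_fin_two]
  choose a ha using h
  have hM : ∀ i j, ∃ μ ∈ I, LinearMap.toMatrix b b g i j = a (b j) * b.repr v₀ i + μ := by
    intro i j
    refine ⟨b.repr (g (b j) - a (b j) • v₀) i, repr_mem_of_mem_smul_top b I (ha (b j)) i, ?_⟩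
    rw [LinearMap.toMatrix_apply, map_sub, map_smul, Finsupp.sub_apply, Finsupp.smul_apply,
      smul_eq_mul]
    ring
  obtain ⟨μ00, h00, e00⟩ := hM 0 0
  obtain ⟨μ01, h01, e01⟩ := hM 0 1
  obtain ⟨μ10, h10, e10⟩ := hM 1 0
  obtain ⟨μ11, h11, e11⟩ := hM 1 1
  rw [e00, e01, e10, e11]
  set a0 := a (b 0)
  set a1 := a (b 1)
  set x0 := b.repr v₀ 0
  set x1 := b.repr v₀ 1
  have key : (a0 * x0 + μ00) * (a1 * x1 + μ11) - (a1 * x0 + μ01) * (a0 * x1 + μ10) =
      μ00 * (a1 * x1 + μ11) + μ11 * (a0 * x0) - (μ01 * (a0 * x1 + μ10) + μ10 * (a1 * x0)) := by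
    ring
  rw [key]
  refine I.sub_mem (I.add_mem (I.mul_mem_right _ h00) (I.mul_mem_right _ h11))
    (I.add_mem (I.mul_mem_right _ h01) (I.mul_mem_right _ h10))

/-- Cayley–Hamilton in rank two, with explicit trace and determinant -/
theorem sq_sub_trace_add_det (hV : Module.finrank A V = 2) (f : Module.End A V) :
    f * f - LinearMap.trace A V f • f + LinearMap.det f • (1 : Module.End A V) = 0 := by
  classical
  let b : Module.Basis (Fin 2) A V := Module.finBasisOfFinrankEq A V hV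
  have h1 : Polynomial.aeval (f : Module.End A V) (LinearMap.charpoly f) = 0 :=
    LinearMap.aeval_self_charpoly f
  rw [← LinearMap.charpoly_toMatrix f b, Matrix.charpoly_fin_two,
    ← LinearMap.trace_eq_matrix_trace A b f, LinearMap.det_toMatrix b f] at h1
  rw [map_add, map_sub, map_mul, map_pow, Polynomial.aeval_X, Polynomial.aeval_C,
    Polynomial.aeval_C, Algebra.algebraMap_eq_smul_one, Algebra.algebraMap_eq_smul_one, pow_two,
    smul_mul_assoc, one_mul] at h1
  exact h1

/-- `det (f - 1) = 1 - tr f + det f` in rank two -/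
theorem det_sub_one_eq (hV : Module.finrank A V = 2) (f : Module.End A V) :
    LinearMap.det (f - 1) = 1 - LinearMap.trace A V f + LinearMap.det f := by
  classical
  let b : Module.Basis (Fin 2) A V := Module.finBasisOfFinrankEq A V hV
  rw [← LinearMap.det_toMatrix b (f - 1), ← LinearMap.det_toMatrix b f,
    LinearMap.trace_eq_matrix_trace A b f, map_sub, Matrix.det_fin_two, Matrix.det_fin_two,
    Matrix.trace_fin_two]
  have h1 : LinearMap.toMatrix b b (1 : Module.End A V) = 1 := LinearMap.toMatrix_one b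
  rw [h1]
  simp only [Matrix.sub_apply, Matrix.one_apply_eq, Matrix.one_apply_ne, ne_eq, Fin.reduceEq,
    not_false_eq_true, Fin.zero_eq_one_iff, OfNat.ofNat_ne_one, sub_zero]
  ring

end Mat

section Core

variable {A : Type*} [CommRing A] [IsLocalRing A]
  {V : Type*} [AddCommGroup V] [Module A V] [Module.Free A V] [Module.Finite A V]

theorem isUnit_add_of_mem {x y : A} (hx : IsUnit x) (hy : y ∈ maximalIdeal A) : IsUnit (x + y) := by
  by_contra h
  have h1 : x + y ∈ maximalIdeal A := (IsLocalRing.mem_maximalIdeal _).mpr h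
  have h2 : x ∈ maximalIdeal A := by
    have := (maximalIdeal A).sub_mem h1 hy
    simpa using this
  exact (IsLocalRing.mem_maximalIdeal _).mp h2 hx

/-- Hensel: the characteristic polynomial of `f` splits as `(X - α)(X - β)`, `α ≡ 1`. -/
theorem exists_roots [HenselianRing A (maximalIdeal A)] (hV : Module.finrank A V = 2)
    (f : Module.End A V) (hdu : IsUnit (LinearMap.det f)) (hdet : IsUnit (LinearMap.det f - 1))
    (hsing : LinearMap.det (f - 1) ∈ maximalIdeal A) :
    ∃ α β : A, α - 1 ∈ maximalIdeal A ∧ IsUnit α ∧ IsUnit β ∧ IsUnit (β - α) ∧ IsUnit (β - 1) ∧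
      α * β = LinearMap.det f ∧ (f - α • 1) * (f - β • 1) = 0 ∧ (f - β • 1) * (f - α • 1) = 0 := by
  set t := LinearMap.trace A V f with ht
  set d := LinearMap.det f with hd
  have hs : 1 - t + d ∈ maximalIdeal A := by rw [← det_sub_one_eq hV f]; exact hsing
  let P : A[X] := X ^ 2 + (C (-t) * X + C d)
  have hP : P.Monic := Polynomial.monic_X_pow_add (lt_of_le_of_lt (Polynomial.degree_linear_le)
    (by norm_num))
  have hP1 : P.eval 1 = 1 - t + d := by simp [P]; ring
  have hP' : (Polynomial.derivative P).eval 1 = 2 - t := by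
    simp [P, Polynomial.derivative_pow]
    ring
  have hu2 : IsUnit (2 - t) := by
    have h1 : IsUnit (-(d - 1)) := hdet.neg
    have := isUnit_add_of_mem h1 hs
    have e : -(d - 1) + (1 - t + d) = 2 - t := by ring
    rwa [e] at this
  obtain ⟨α, hα, hα1⟩ := HenselianRing.is_henselian (I := maximalIdeal A) P hP 1
    (by rw [hP1]; exact hs) (by rw [hP']; exact hu2.map _)
  have hαeq : α ^ 2 - t * α + d = 0 := by
    have := hα
    simp only [Polynomial.IsRoot.def, P, Polynomial.eval_add, Polynomial.eval_pow,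
      Polynomial.eval_X, Polynomial.eval_mul, Polynomial.eval_C] at this
    linear_combination this
  refine ⟨α, t - α, hα1, ?_, ?_, ?_, ?_, ?_, ?_, ?_⟩
  · have := isUnit_add_of_mem isUnit_one hα1
    rwa [add_sub_cancel] at this
  · have h1 : α * (t - α) = d := by linear_combination -hαeq
    exact isUnit_of_mul_isUnit_right (h1 ▸ hdu)
  · have h1 : IsUnit (-(2 - t)) := hu2.neg
    have h2 : -(2 : A) * (α - 1) ∈ maximalIdeal A := (maximalIdeal A).mul_mem_left _ hα1
    have := isUnit_add_of_mem h1 h2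
    have e : -(2 - t) + -(2 : A) * (α - 1) = t - α - α := by ring
    rwa [e] at this
  · have h2 : -(1 - t + d) - (α - 1) ∈ maximalIdeal A :=
      (maximalIdeal A).sub_mem ((maximalIdeal A).neg_mem hs) hα1
    have := isUnit_add_of_mem hdet h2
    have e : d - 1 + (-(1 - t + d) - (α - 1)) = t - α - 1 := by ring
    rwa [e] at this
  · linear_combination -hαeq
  · have hCH := sq_sub_trace_add_det hV f
    apply LinearMap.ext
    intro v
    have h2 := LinearMap.congr_fun hCH v
    simp only [LinearMap.add_apply, LinearMap.sub_apply, Module.End.mul_apply,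
      LinearMap.smul_apply, Module.End.one_apply, LinearMap.zero_apply] at h2 ⊢
    simp only [map_sub, map_smul]
    have h3 : d = α * (t - α) := by linear_combination hαeq
    rw [← ht, ← hd, h3] at h2
    rw [← h2]
    module
  · have hCH := sq_sub_trace_add_det hV f
    apply LinearMap.ext
    intro v
    have h2 := LinearMap.congr_fun hCH v
    simp only [LinearMap.add_apply, LinearMap.sub_apply, Module.End.mul_apply,
      LinearMap.smul_apply, Module.End.one_apply, LinearMap.zero_apply] at h2 ⊢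
    simp only [map_sub, map_smul]
    have h3 : d = α * (t - α) := by linear_combination hαeq
    rw [← ht, ← hd, h3] at h2
    rw [← h2]
    module

/-- `a • m ∈ 𝔪ⁿ⁺¹ V` for `a ∈ 𝔪`, `m ∈ 𝔪ⁿ V` -/
theorem smul_mem_pow_succ {a : A} (ha : a ∈ maximalIdeal A) {n : ℕ} {m : V}
    (hm : m ∈ (maximalIdeal A ^ n) • (⊤ : Submodule A V)) :
    a • m ∈ (maximalIdeal A ^ (n + 1)) • (⊤ : Submodule A V) := by
  rw [pow_succ', Submodule.mul_smul]
  exact Submodule.smul_mem_smul ha hm

/-- **(ALG-UNIFORM), count-free core.** -/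
theorem exists_basis_of_inj [IsNoetherianRing A] [HenselianRing A (maximalIdeal A)]
    (hV : Module.finrank A V = 2) (f : Module.End A V) (L : Submodule A V)
    (hdu : IsUnit (LinearMap.det f)) (hdet : IsUnit (LinearMap.det f - 1))
    (hsing : LinearMap.det (f - 1) ∈ maximalIdeal A)
    (hfL : LinearMap.range (f - 1) ≤ L)
    (hinj : ∀ n : ℕ, ∀ x ∈ L, f x - x ∈ (maximalIdeal A ^ n) • (⊤ : Submodule A V) →
      x ∈ (maximalIdeal A ^ n) • (⊤ : Submodule A V)) :
    ∃ b : Module.Basis (Fin 2) A V, L = A ∙ b 0 := by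
  obtain ⟨α, β, hα1, hαu, hβu, hβα, hβ1, hαβ, hq, hq2⟩ := exists_roots hV f hdu hdet hsing
  obtain ⟨ua, rfl⟩ := hαu
  obtain ⟨w, hw⟩ := hβα
  obtain ⟨z, hz⟩ := hβ1
  -- pointwise forms of the two quadratic identities
  have hq_pt : ∀ v : V, f (f v - β • v) = (ua : A) • (f v - β • v) := by
    intro v
    have := LinearMap.congr_fun hq v
    simp only [Module.End.mul_apply, LinearMap.sub_apply, LinearMap.smul_apply,
      Module.End.one_apply, LinearMap.zero_apply] at this
    exact sub_eq_zero.mp this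
  have hq2_pt : ∀ v : V, f (f v - (ua : A) • v) = β • (f v - (ua : A) • v) := by
    intro v
    have := LinearMap.congr_fun hq2 v
    simp only [Module.End.mul_apply, LinearMap.sub_apply, LinearMap.smul_apply,
      Module.End.one_apply, LinearMap.zero_apply] at this
    exact sub_eq_zero.mp this
  -- the normalised operator `f' = α⁻¹ f`
  set f' : Module.End A V := ((ua⁻¹ : Aˣ) : A) • f with hf'
  set c' : A := ((ua⁻¹ : Aˣ) : A) * β with hc'
  have e1 : f' - 1 = ((ua⁻¹ : Aˣ) : A) • (f - (ua : A) • 1) := by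
    rw [hf', smul_sub, smul_smul, Units.inv_mul, one_smul]
  have e2 : f' - c' • 1 = ((ua⁻¹ : Aˣ) : A) • (f - β • 1) := by
    rw [hf', hc', smul_sub, smul_smul]
  have hq' : (f' - 1) * (f' - c' • 1) = 0 := by
    rw [e1, e2, smul_mul_smul_comm, hq, smul_zero]
  have hdet' : LinearMap.det f' = c' := by
    rw [hf', LinearMap.det_smul, hV, ← hαβ, hc']
    have : ((ua⁻¹ : Aˣ) : A) * (ua : A) = 1 := Units.inv_mul ua
    linear_combination ((ua⁻¹ : Aˣ) : A) * β * this
  have hc'1 : IsUnit (c' - 1) := by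
    have : c' - 1 = ((ua⁻¹ * w : Aˣ) : A) := by
      rw [Units.val_mul, hw, hc']
      have : ((ua⁻¹ : Aˣ) : A) * (ua : A) = 1 := Units.inv_mul ua
      linear_combination this
    rw [this]
    exact Units.isUnit _
  have hc'u : IsUnit c' := (Units.isUnit _).mul hβu
  obtain ⟨b, hb⟩ := OrdGlue.exists_basis_range_sub_one hV f' c' hc'1 hc'u hdet' hq'
  refine ⟨b, ?_⟩
  rw [← hb, e1, OrdGlue.range_unit_smul]
  apply le_antisymm
  · -- `L ≤ R`
    intro x hx
    set r : V := ((w⁻¹ : Aˣ) : A) • (f x - (ua : A) • x) with hr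
    set k : V := -(((w⁻¹ : Aˣ) : A) • (f x - β • x)) with hk
    have hrk : r + k = x := by
      have h1 : ((w⁻¹ : Aˣ) : A) * (w : A) = 1 := Units.inv_mul w
      have h2 : r + k = (((w⁻¹ : Aˣ) : A) * (w : A)) • x := by
        rw [hr, hk, hw]
        module
      rw [h2, h1, one_smul]
    have hrR : r ∈ LinearMap.range (f - (ua : A) • 1) :=
      ⟨((w⁻¹ : Aˣ) : A) • x, by simp [hr, smul_sub, smul_smul, mul_comm]⟩
    -- `R ≤ L` applied to `r`
    have hrL : r ∈ L := by
      have h1 : f r = β • r := by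
        rw [hr, map_smul, hq2_pt, smul_comm]
      have h2 : f r - r = (z : A) • r := by
        rw [h1, hz, sub_smul, one_smul]
      have h3 : f r - r ∈ L := hfL ⟨r, by simp⟩
      have h4 : r = ((z⁻¹ : Aˣ) : A) • (f r - r) := by
        rw [h2, smul_smul, Units.inv_mul, one_smul]
      rw [h4]
      exact L.smul_mem _ h3
    have hkL : k ∈ L := by
      have : k = x - r := by rw [← hrk]; abel
      rw [this]
      exact L.sub_mem hx hrL
    have hfk : f k - k = ((ua : A) - 1) • k := by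
      have : f k = (ua : A) • k := by
        rw [hk, map_neg, map_smul, hq_pt, smul_neg, smul_comm]
      rw [this, sub_smul, one_smul]
    have hkn : ∀ n : ℕ, k ∈ (maximalIdeal A ^ n) • (⊤ : Submodule A V) := by
      intro n
      induction n with
      | zero => simp
      | succ n ih =>
        apply hinj (n + 1) k hkL
        rw [hfk]
        exact smul_mem_pow_succ hα1 ih
    have hk0 : k = 0 := by
      have h1 : k ∈ (⨅ i : ℕ, (maximalIdeal A ^ i) • (⊤ : Submodule A V)) :=
        (Submodule.mem_iInf _).mpr hkn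
      rw [Ideal.iInf_pow_smul_eq_bot_of_isLocalRing (maximalIdeal A) Ideal.IsPrime.ne_top'] at h1
      exact (Submodule.mem_bot A).mp h1
    rw [← hrk, hk0, add_zero]
    exact hrR
  · -- `R ≤ L`
    rintro _ ⟨y, rfl⟩
    set r : V := (f - (ua : A) • 1) y with hr
    have hr' : r = f y - (ua : A) • y := by simp [hr]
    have h1 : f r = β • r := by rw [hr', hq2_pt]
    have h2 : f r - r = (z : A) • r := by
      rw [h1, hz, sub_smul, one_smul]
    have h3 : f r - r ∈ L := hfL ⟨r, by simp⟩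
    have h4 : r = ((z⁻¹ : Aˣ) : A) • (f r - r) := by
      rw [h2, smul_smul, Units.inv_mul, one_smul]
    rw [h4]
    exact L.smul_mem _ h3

end Core

section NoTrivial

variable {A : Type*} [CommRing A] [IsLocalRing A]
  {V : Type*} [AddCommGroup V] [Module A V] [Module.Free A V] [Module.Finite A V]

/-- the augmentation submodule `span {g v - v : g ∈ S}` -/
def augSpan (S : Set (Module.End A V)) : Submodule A V :=
  Submodule.span A {x | ∃ g ∈ S, ∃ v : V, x = g v - v}

variable {S : Set (Module.End A V)} {g : Module.End A V}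

theorem sub_mem_augSpan (hg : g ∈ S) (v : V) : g v - v ∈ augSpan S :=
  Submodule.subset_span ⟨g, hg, v, rfl⟩

theorem map_mem_augSpan (hg : g ∈ S) {x : V} (hx : x ∈ augSpan S) : g x ∈ augSpan S := by
  have := add_mem (sub_mem_augSpan hg x) hx
  simpa using this

/-- linear maps preserve `I • ⊤` -/
theorem map_mem_smul_top (I : Ideal A) (g : Module.End A V) {m : V}
    (hm : m ∈ I • (⊤ : Submodule A V)) : g m ∈ I • (⊤ : Submodule A V) := by
  refine Submodule.smul_induction_on hm ?_ ?_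
  · intro r hr n _
    rw [map_smul]
    exact Submodule.smul_mem_smul hr trivial
  · intro x y hx hy
    rw [map_add]
    exact add_mem hx hy

/-- `(g - 1)(I V) ⊆ I • L` -/
theorem sub_mem_smul_augSpan (I : Ideal A) (hg : g ∈ S) {m : V}
    (hm : m ∈ I • (⊤ : Submodule A V)) : g m - m ∈ I • augSpan S := by
  refine Submodule.smul_induction_on hm ?_ ?_
  · intro r hr n _
    rw [map_smul, ← smul_sub]
    exact Submodule.smul_mem_smul hr (sub_mem_augSpan hg n)
  · intro x y hx hy
    have : g (x + y) - (x + y) = (g x - x) + (g y - y) := by rw [map_add]; abel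
    rw [this]
    exact add_mem hx hy

/-- the trace of an endomorphism with image in `I V` lies in `I` (rank two) -/
theorem trace_mem_of_range_le (hV : Module.finrank A V = 2) (I : Ideal A) (g : Module.End A V)
    (h : ∀ v, g v ∈ I • (⊤ : Submodule A V)) : LinearMap.trace A V g ∈ I := by
  classical
  let b : Module.Basis (Fin 2) A V := Module.finBasisOfFinrankEq A V hV
  rw [LinearMap.trace_eq_matrix_trace A b g, Matrix.trace_fin_two, LinearMap.toMatrix_apply,
    LinearMap.toMatrix_apply]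
  exact I.add_mem (repr_mem_of_mem_smul_top b I (h _) _) (repr_mem_of_mem_smul_top b I (h _) _)

theorem pow_smul_top_mono {n m : ℕ} (h : n ≤ m) :
    (maximalIdeal A ^ m) • (⊤ : Submodule A V) ≤ (maximalIdeal A ^ n) • (⊤ : Submodule A V) :=
  Submodule.smul_mono_left (Ideal.pow_le_pow_right h)

/-- **`(NT) ⟹ (INJ)`**: if the image of `L = augSpan S` in `V / 𝔪ⁿ V` has no nonzero `S`-trivial
subquotient (for submodules), then `f - 1` is injective on it. -/
theorem inj_of_noTrivial [HenselianRing A (maximalIdeal A)]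
    (hV : Module.finrank A V = 2) (S : Set (Module.End A V)) (f : Module.End A V) (hfS : f ∈ S)
    (hdu : IsUnit (LinearMap.det f)) (hdet : IsUnit (LinearMap.det f - 1))
    (v₀ : V) (hshape : ∀ g ∈ S, ∀ v : V, ∃ a : A,
      g v - v - a • v₀ ∈ maximalIdeal A • (⊤ : Submodule A V))
    (hNT : ∀ (n : ℕ) (Y' Y : Submodule A V),
      (maximalIdeal A ^ n) • (⊤ : Submodule A V) ≤ Y' → Y' ≤ Y →
      Y ≤ augSpan S ⊔ (maximalIdeal A ^ n) • (⊤ : Submodule A V) →
      (∀ g ∈ S, ∀ y ∈ Y, g y ∈ Y) → (∀ g ∈ S, ∀ y ∈ Y', g y ∈ Y') →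
      (∀ g ∈ S, ∀ y ∈ Y, g y - y ∈ Y') → Y ≤ Y') :
    ∀ n : ℕ, ∀ x ∈ augSpan S, f x - x ∈ (maximalIdeal A ^ n) • (⊤ : Submodule A V) →
      x ∈ (maximalIdeal A ^ n) • (⊤ : Submodule A V) := by
  classical
  set 𝔪 := maximalIdeal A with h𝔪
  have hsing : LinearMap.det (f - 1) ∈ 𝔪 := by
    refine det_mem_of_range_le hV 𝔪 (f - 1) v₀ fun v => ?_
    obtain ⟨a, ha⟩ := hshape f hfS v
    exact ⟨a, by simpa using ha⟩
  obtain ⟨α, β, hα1, -, -, -, hβ1, -, -, hq2⟩ := exists_roots hV f hdu hdet hsing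
  obtain ⟨z, hz⟩ := hβ1
  have hq2_pt : ∀ v : V, f (f v - α • v) = β • (f v - α • v) := by
    intro v
    have := LinearMap.congr_fun hq2 v
    simp only [Module.End.mul_apply, LinearMap.sub_apply, LinearMap.smul_apply,
      Module.End.one_apply, LinearMap.zero_apply] at this
    exact sub_eq_zero.mp this
  -- the operator `f - β` maps `𝔪 V` to `𝔪 V`
  have hfβ : ∀ {I : Ideal A} {m : V}, m ∈ I • (⊤ : Submodule A V) →
      f m - β • m ∈ I • (⊤ : Submodule A V) := by
    intro I m hm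
    exact sub_mem (map_mem_smul_top I f hm) (Submodule.smul_mem _ _ hm)
  -- (SH) `(f - β) v₀ ∈ 𝔪 V`
  choose a ha using hshape f hfS
  have hSH : f v₀ - β • v₀ ∈ 𝔪 • (⊤ : Submodule A V) := by
    by_cases hex : ∃ v, IsUnit (a v)
    · obtain ⟨v, hv⟩ := hex
      obtain ⟨u, hu⟩ := hv
      -- `(f - β)(f - 1) v ∈ 𝔪 V`
      have h1 : f (f v - v) - β • (f v - v) ∈ 𝔪 • (⊤ : Submodule A V) := by
        have e : f (f v - v) - β • (f v - v) = (α - 1) • (f v - β • v) := by
          have := hq2_pt v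
          rw [map_sub, map_smul] at this
          rw [map_sub]
          have e2 : f (f v) = α • f v + β • (f v - α • v) := by
            rw [← this]; abel
          rw [e2]
          module
        rw [e]
        exact Submodule.smul_mem_smul hα1 trivial
      have h2 := hfβ (ha v)
      have h3 : (u : A) • (f v₀ - β • v₀) ∈ 𝔪 • (⊤ : Submodule A V) := by
        have e : (u : A) • (f v₀ - β • v₀) =
            (f (f v - v) - β • (f v - v)) - (f (f v - v - a v • v₀) - β • (f v - v - a v • v₀)) := by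
          rw [hu]
          simp only [map_sub, map_smul]
          module
        rw [e]
        exact sub_mem h1 h2
      have e : f v₀ - β • v₀ = ((u⁻¹ : Aˣ) : A) • ((u : A) • (f v₀ - β • v₀)) := by
        rw [smul_smul, Units.inv_mul, one_smul]
      rw [e]
      exact Submodule.smul_mem _ _ h3
    · exfalso
      have hex' : ∀ v, ¬ IsUnit (a v) := fun v hv => hex ⟨v, hv⟩
      have hall : ∀ v, (f - 1) v ∈ 𝔪 • (⊤ : Submodule A V) := by
        intro v
        have h1 : a v ∈ 𝔪 := (IsLocalRing.mem_maximalIdeal _).mpr (hex' v)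
        have h2 : a v • v₀ ∈ 𝔪 • (⊤ : Submodule A V) := Submodule.smul_mem_smul h1 trivial
        have := add_mem (ha v) h2
        simpa using this
      have ht : LinearMap.trace A V (f - 1) ∈ 𝔪 := trace_mem_of_range_le hV 𝔪 (f - 1) hall
      have e : LinearMap.det f - 1 = LinearMap.det (f - 1) + LinearMap.trace A V (f - 1) := by
        rw [det_sub_one_eq hV f, map_sub, LinearMap.trace_one, hV]
        push_cast
        ring
      have : LinearMap.det f - 1 ∈ 𝔪 := by rw [e]; exact 𝔪.add_mem hsing ht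
      exact (IsLocalRing.mem_maximalIdeal _).mp this hdet
  -- `(f - β) L ⊆ 𝔪 V`
  have hL𝔪 : ∀ y ∈ augSpan S, f y - β • y ∈ 𝔪 • (⊤ : Submodule A V) := by
    intro y hy
    refine Submodule.span_induction (p := fun y _ => f y - β • y ∈ 𝔪 • (⊤ : Submodule A V))
      ?_ ?_ ?_ ?_ hy
    · rintro _ ⟨g, hg, v, rfl⟩
      obtain ⟨c, hc⟩ := hshape g hg v
      have e : f (g v - v) - β • (g v - v) =
          (f (g v - v - c • v₀) - β • (g v - v - c • v₀)) + c • (f v₀ - β • v₀) := by
        simp only [map_sub, map_smul]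
        module
      rw [e]
      exact add_mem (hfβ hc) (Submodule.smul_mem _ _ hSH)
    · simp
    · intro x y _ _ hx hy
      have e : f (x + y) - β • (x + y) = (f x - β • x) + (f y - β • y) := by
        rw [map_add]; module
      rw [e]
      exact add_mem hx hy
    · intro c x _ hx
      have e : f (c • x) - β • (c • x) = c • (f x - β • x) := by
        rw [map_smul]; module
      rw [e]
      exact Submodule.smul_mem _ _ hx
  -- `(f - β)(𝔪ʲ L) ⊆ 𝔪ʲ⁺¹ V`
  have hjL : ∀ (j : ℕ), ∀ y ∈ (𝔪 ^ j) • augSpan S,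
      f y - β • y ∈ (𝔪 ^ (j + 1)) • (⊤ : Submodule A V) := by
    intro j y hy
    refine Submodule.smul_induction_on hy ?_ ?_
    · intro r hr l hl
      have e : f (r • l) - β • (r • l) = r • (f l - β • l) := by
        rw [map_smul]; module
      rw [e, pow_succ, Submodule.mul_smul]
      exact Submodule.smul_mem_smul hr (hL𝔪 l hl)
    · intro x y hx hy
      have e : f (x + y) - β • (x + y) = (f x - β • x) + (f y - β • y) := by
        rw [map_add]; module
      rw [e]
      exact add_mem hx hy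
  -- the induction on `j`
  intro n x hxL hfx
  have key : ∀ j : ℕ, j ≤ n → x ∈ (𝔪 ^ j) • (⊤ : Submodule A V) := by
    intro j
    induction j with
    | zero => intro _; simp
    | succ j ih =>
      intro hj
      have hxj := ih (by omega)
      set Nj : Submodule A V := (𝔪 ^ j) • augSpan S ⊔ (𝔪 ^ (j + 1)) • (⊤ : Submodule A V) with hNj
      set Y : Submodule A V :=
        (augSpan S ⊓ (𝔪 ^ j) • (⊤ : Submodule A V)) ⊔ (𝔪 ^ n) • (⊤ : Submodule A V) with hY
      set Y' : Submodule A V := (augSpan S ⊓ Nj) ⊔ (𝔪 ^ n) • (⊤ : Submodule A V) with hY'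
      have hNj_le : Nj ≤ (𝔪 ^ j) • (⊤ : Submodule A V) :=
        sup_le (Submodule.smul_mono le_rfl le_top) (pow_smul_top_mono (Nat.le_succ j))
      have hYY' : Y ≤ Y' := by
        refine hNT n Y' Y le_sup_right (sup_le_sup_right (inf_le_inf_left _ hNj_le) _)
          (sup_le_sup_right inf_le_left _) ?_ ?_ ?_
        · -- `Y` is `S`-stable
          intro g hg y hy
          obtain ⟨l, hl, m, hm, rfl⟩ := Submodule.mem_sup.mp hy
          rw [map_add]
          refine Submodule.add_mem_sup ⟨map_mem_augSpan hg hl.1, map_mem_smul_top _ g hl.2⟩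
            (map_mem_smul_top _ g hm)
        · -- `Y'` is `S`-stable
          intro g hg y hy
          obtain ⟨l, hl, m, hm, rfl⟩ := Submodule.mem_sup.mp hy
          rw [map_add]
          refine Submodule.add_mem_sup ⟨map_mem_augSpan hg hl.1, ?_⟩ (map_mem_smul_top _ g hm)
          obtain ⟨u, hu, u', hu', rfl⟩ := Submodule.mem_sup.mp hl.2
          rw [map_add]
          refine Submodule.add_mem_sup ?_ (map_mem_smul_top _ g hu')
          refine Submodule.smul_induction_on hu ?_ ?_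
          · intro r hr l' hl'
            rw [map_smul]
            exact Submodule.smul_mem_smul hr (map_mem_augSpan hg hl')
          · intro x y hx hy
            rw [map_add]
            exact add_mem hx hy
        · -- `S` acts trivially on `Y / Y'`
          intro g hg y hy
          obtain ⟨l, hl, m, hm, rfl⟩ := Submodule.mem_sup.mp hy
          have e : g (l + m) - (l + m) = (g l - l) + (g m - m) := by rw [map_add]; abel
          rw [e]
          refine Submodule.add_mem_sup ⟨sub_mem_augSpan hg l, ?_⟩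
            (sub_mem (map_mem_smul_top _ g hm) hm)
          exact Submodule.mem_sup_left (sub_mem_smul_augSpan _ hg hl.2)
      have hxY : x ∈ Y := Submodule.mem_sup_left ⟨hxL, hxj⟩
      obtain ⟨y', hy', m, hm, hxe⟩ := Submodule.mem_sup.mp (hYY' hxY)
      obtain ⟨u, hu, u', hu', hye⟩ := Submodule.mem_sup.mp hy'.2
      have hm' : m ∈ (𝔪 ^ (j + 1)) • (⊤ : Submodule A V) := pow_smul_top_mono hj hm
      have h1 : f x - β • x ∈ (𝔪 ^ (j + 1)) • (⊤ : Submodule A V) := by
        have e : f x - β • x = (f u - β • u) + (f u' - β • u') + (f m - β • m) := by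
          rw [← hxe, ← hye]
          simp only [map_add]
          module
        rw [e]
        exact add_mem (add_mem (hjL j u hu) (hfβ hu')) (hfβ hm')
      have h2 : (z : A) • x ∈ (𝔪 ^ (j + 1)) • (⊤ : Submodule A V) := by
        have e : (z : A) • x = (f x - x) - (f x - β • x) := by
          rw [hz]; module
        rw [e]
        exact sub_mem (pow_smul_top_mono hj hfx) h1
      have e : x = ((z⁻¹ : Aˣ) : A) • ((z : A) • x) := by
        rw [smul_smul, Units.inv_mul, one_smul]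
      rw [e]
      exact Submodule.smul_mem _ _ h2
  exact key n le_rfl

/-- **(ALG-UNIFORM)** from the residual shape and (NT). -/
theorem exists_basis_of_noTrivial [IsNoetherianRing A] [HenselianRing A (maximalIdeal A)]
    (hV : Module.finrank A V = 2) (S : Set (Module.End A V)) (f : Module.End A V) (hfS : f ∈ S)
    (hdu : IsUnit (LinearMap.det f)) (hdet : IsUnit (LinearMap.det f - 1))
    (v₀ : V) (hshape : ∀ g ∈ S, ∀ v : V, ∃ a : A,
      g v - v - a • v₀ ∈ maximalIdeal A • (⊤ : Submodule A V))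
    (hNT : ∀ (n : ℕ) (Y' Y : Submodule A V),
      (maximalIdeal A ^ n) • (⊤ : Submodule A V) ≤ Y' → Y' ≤ Y →
      Y ≤ augSpan S ⊔ (maximalIdeal A ^ n) • (⊤ : Submodule A V) →
      (∀ g ∈ S, ∀ y ∈ Y, g y ∈ Y) → (∀ g ∈ S, ∀ y ∈ Y', g y ∈ Y') →
      (∀ g ∈ S, ∀ y ∈ Y, g y - y ∈ Y') → Y ≤ Y') :
    ∃ b : Module.Basis (Fin 2) A V, augSpan S = A ∙ b 0 := by
  have hsing : LinearMap.det (f - 1) ∈ maximalIdeal A := by
    refine det_mem_of_range_le hV _ (f - 1) v₀ fun v => ?_
    obtain ⟨a, ha⟩ := hshape f hfS v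
    exact ⟨a, by simpa using ha⟩
  refine exists_basis_of_inj hV f (augSpan S) hdu hdet hsing ?_
    (inj_of_noTrivial hV S f hfS hdu hdet v₀ hshape hNT)
  rintro _ ⟨v, rfl⟩
  have := sub_mem_augSpan hfS v
  simpa using this

end NoTrivial

section Ordinary

variable {A : Type} [CommRing A] [IsLocalRing A]

/-- the inertia operators of `ρ` at `P` -/
def inertiaOps (ρ : GaloisRepAdic A) (P : ValuationSubring (AlgebraicClosure ℚ)) :
    Set (Module.End A ρ.V) :=
  {g | ∃ σ ∈ P.inertiaSubgroupIn ℚ, g = ρ.ρ σ}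

/-- `L_P = span {ρ(σ) v - v : σ ∈ I_P}` -/
abbrev inertiaSpan (ρ : GaloisRepAdic A) (P : ValuationSubring (AlgebraicClosure ℚ)) :
    Submodule A ρ.V :=
  augSpan (inertiaOps ρ P)

theorem inertiaSpan_eq (ρ : GaloisRepAdic A) (P : ValuationSubring (AlgebraicClosure ℚ)) :
    inertiaSpan ρ P =
      Submodule.span A {x | ∃ σ ∈ P.inertiaSubgroupIn ℚ, ∃ v : ρ.V, x = ρ.ρ σ v - v} := by
  unfold inertiaSpan augSpan inertiaOps
  congr 1
  ext x
  constructor
  · rintro ⟨g, ⟨σ, hσ, rfl⟩, v, rfl⟩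
    exact ⟨σ, hσ, v, rfl⟩
  · rintro ⟨σ, hσ, v, rfl⟩
    exact ⟨_, ⟨σ, hσ, rfl⟩, v, rfl⟩

/-- the inertia group is normalised by the decomposition group -/
theorem conj_mem_inertia {P : ValuationSubring (AlgebraicClosure ℚ)}
    {i τ : AlgebraicClosure ℚ ≃ₐ[ℚ] AlgebraicClosure ℚ}
    (hi : i ∈ P.inertiaSubgroupIn ℚ) (hτ : τ ∈ P.decompositionSubgroup ℚ) :
    τ * i * τ⁻¹ ∈ P.inertiaSubgroupIn ℚ := by
  unfold ValuationSubring.inertiaSubgroupIn at hi ⊢
  rw [Subgroup.mem_map] at hi ⊢
  obtain ⟨i', hi', hii⟩ := hi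
  have hn : (P.inertiaSubgroup ℚ).Normal := by
    unfold ValuationSubring.inertiaSubgroup
    exact MonoidHom.normal_ker _
  have h1 := hn.conj_mem i' hi' ⟨τ, hτ⟩
  refine ⟨_, h1, ?_⟩
  rw [map_mul, map_mul, map_inv, hii]
  rfl

theorem isUnit_det_rho (ρ : GaloisRepAdic A) (σ : AlgebraicClosure ℚ ≃ₐ[ℚ] AlgebraicClosure ℚ) :
    IsUnit (LinearMap.det (ρ.ρ σ)) := by
  have h : ρ.ρ σ * ρ.ρ σ⁻¹ = 1 := by rw [← map_mul, mul_inv_cancel, map_one]
  have h2 : LinearMap.det (ρ.ρ σ) * LinearMap.det (ρ.ρ σ⁻¹) = 1 := by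
    rw [← map_mul, h, map_one]
  exact IsUnit.of_mul_eq_one _ h2

/-- the frozen `IsOrdinaryAt` for the line `L_P = inertiaSpan ρ P`, once it is a basis line -/
theorem isOrdinaryAt_of_inertiaSpan (ρ : GaloisRepAdic A) (p : ℕ)
    (h : ∀ P : ValuationSubring (AlgebraicClosure ℚ), P.LiesOverPrime p →
      ∃ b : Module.Basis (Fin 2) A ρ.V, inertiaSpan ρ P = A ∙ b 0) :
    ρ.IsOrdinaryAt p := by
  intro P hP
  obtain ⟨b, hb⟩ := h P hP
  refine ⟨inertiaSpan ρ P, ⟨b, hb⟩, ?_, ?_⟩
  · intro τ hτ v hv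
    refine Submodule.span_induction (p := fun v _ => ρ.ρ τ v ∈ inertiaSpan ρ P) ?_ ?_ ?_ ?_ hv
    · rintro _ ⟨g, ⟨σ, hσ, rfl⟩, w, rfl⟩
      have e : ρ.ρ τ (ρ.ρ σ w - w) = ρ.ρ (τ * σ * τ⁻¹) (ρ.ρ τ w) - ρ.ρ τ w := by
        rw [map_sub]
        congr 1
        rw [← Module.End.mul_apply, ← Module.End.mul_apply, ← map_mul, ← map_mul]
        congr 2
        group
      rw [e]
      exact sub_mem_augSpan (S := inertiaOps ρ P) (g := ρ.ρ (τ * σ * τ⁻¹))
        ⟨_, conj_mem_inertia hσ hτ, rfl⟩ _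
    · simp
    · intro x y _ _ hx hy
      rw [map_add]
      exact add_mem hx hy
    · intro c x _ hx
      rw [map_smul]
      exact Submodule.smul_mem _ _ hx
  · intro σ hσ v
    exact sub_mem_augSpan (S := inertiaOps ρ P) (g := ρ.ρ σ) ⟨σ, hσ, rfl⟩ v

/-- **frozen `IsOrdinaryAt` from (INJ)** at one inertia element `σ₀` with `det ρ(σ₀) - 1` a unit. -/
theorem isOrdinaryAt_of_inj [IsNoetherianRing A] [HenselianRing A (maximalIdeal A)]
    (ρ : GaloisRepAdic A) (p : ℕ)
    (h : ∀ P : ValuationSubring (AlgebraicClosure ℚ), P.LiesOverPrime p →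
      ∃ σ₀ ∈ P.inertiaSubgroupIn ℚ, IsUnit (LinearMap.det (ρ.ρ σ₀) - 1) ∧
        LinearMap.det (ρ.ρ σ₀ - 1) ∈ maximalIdeal A ∧
        ∀ n : ℕ, ∀ x ∈ inertiaSpan ρ P,
          ρ.ρ σ₀ x - x ∈ (maximalIdeal A ^ n) • (⊤ : Submodule A ρ.V) →
            x ∈ (maximalIdeal A ^ n) • (⊤ : Submodule A ρ.V)) :
    ρ.IsOrdinaryAt p := by
  refine isOrdinaryAt_of_inertiaSpan ρ p fun P hP => ?_
  obtain ⟨σ₀, hσ₀, hdet, hsing, hinj⟩ := h P hP
  refine exists_basis_of_inj ρ.finrank_eq (ρ.ρ σ₀) (inertiaSpan ρ P) (isUnit_det_rho ρ σ₀) hdet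
    hsing ?_ hinj
  rintro _ ⟨v, rfl⟩
  have := sub_mem_augSpan (S := inertiaOps ρ P) ⟨σ₀, hσ₀, rfl⟩ v
  simpa using this

/-- **frozen `IsOrdinaryAt` from the residual shape and (NT)**: for every `P ∣ p`,
* some `σ₀ ∈ I_P` has `det ρ(σ₀) - 1` a unit,
* `I_P` acts trivially on `V̄ / k v̄₀` for some `v₀`,
* the image of `L_P` in `V / 𝔪ⁿ V` has no nonzero `I_P`-trivial subquotient `Y / Y'`
  (`Y' ≤ Y` submodules). -/
theorem isOrdinaryAt_of_noTrivial [IsNoetherianRing A] [HenselianRing A (maximalIdeal A)]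
    (ρ : GaloisRepAdic A) (p : ℕ)
    (h : ∀ P : ValuationSubring (AlgebraicClosure ℚ), P.LiesOverPrime p →
      (∃ σ₀ ∈ P.inertiaSubgroupIn ℚ, IsUnit (LinearMap.det (ρ.ρ σ₀) - 1)) ∧
      (∃ v₀ : ρ.V, ∀ σ ∈ P.inertiaSubgroupIn ℚ, ∀ v : ρ.V, ∃ a : A,
        ρ.ρ σ v - v - a • v₀ ∈ maximalIdeal A • (⊤ : Submodule A ρ.V)) ∧
      (∀ (n : ℕ) (Y' Y : Submodule A ρ.V),
        (maximalIdeal A ^ n) • (⊤ : Submodule A ρ.V) ≤ Y' → Y' ≤ Y →
        Y ≤ inertiaSpan ρ P ⊔ (maximalIdeal A ^ n) • (⊤ : Submodule A ρ.V) →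
        (∀ σ ∈ P.inertiaSubgroupIn ℚ, ∀ y ∈ Y, ρ.ρ σ y ∈ Y) →
        (∀ σ ∈ P.inertiaSubgroupIn ℚ, ∀ y ∈ Y', ρ.ρ σ y ∈ Y') →
        (∀ σ ∈ P.inertiaSubgroupIn ℚ, ∀ y ∈ Y, ρ.ρ σ y - y ∈ Y') → Y ≤ Y')) :
    ρ.IsOrdinaryAt p := by
  refine isOrdinaryAt_of_inertiaSpan ρ p fun P hP => ?_
  obtain ⟨⟨σ₀, hσ₀, hdet⟩, ⟨v₀, hshape⟩, hNT⟩ := h P hP
  refine exists_basis_of_noTrivial ρ.finrank_eq (inertiaOps ρ P) (ρ.ρ σ₀) ⟨σ₀, hσ₀, rfl⟩
    (isUnit_det_rho ρ σ₀) hdet v₀ ?_ ?_
  · rintro _ ⟨σ, hσ, rfl⟩ v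
    exact hshape σ hσ v
  · intro n Y' Y h1 h2 h3 h4 h5 h6
    refine hNT n Y' Y h1 h2 h3 ?_ ?_ ?_
    · intro σ hσ y hy
      exact h4 _ ⟨σ, hσ, rfl⟩ y hy
    · intro σ hσ y hy
      exact h5 _ ⟨σ, hσ, rfl⟩ y hy
    · intro σ hσ y hy
      exact h6 _ ⟨σ, hσ, rfl⟩ y hy

/-- the `HenselianRing` instance needed above, from adic completeness (as in the S33 binders) -/
theorem henselianRing_of_isAdicComplete [IsAdicComplete (maximalIdeal A) A] :
    HenselianRing A (maximalIdeal A) := inferInstance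

end Ordinary

end Fermat.Agent.GS.AlgUniform
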