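/-
CELL-S / GATE-S, node [SUBQ] of helper60's DESIGN v1 (helper96).

`GH/S32/Top.isSubquotPow_levelAction` (helper47) — every finite level `V ⧸ I • ⊤` of the
representation of a Hecke–Galois datum of level `N` away from `S` is a `G_ℚ`-equivariant
subquotient of a finite power of some `J₀(N)[p^n]` — carries NO hypothesis `¬ p ∣ N`.  This file
plugs GATE-J's two unconditional gates (`k18sAux`, `towerGateC`, exactly as in
`GH/S32/Final.lean`) and records the gate-free statement, valid for `p ∣ N` as well: the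
`[SUBQ]` input of S33.
-/
import Fermat.Agent.GH.S32.Top
import Fermat.Agent.GJ.Tate.S30Final
import Fermat.Agent.GJ.Tate.TowerGateCInst
import Fermat.Agent.GJ.J1.K18sAllFinal

set_option autoImplicit false

open CuspForm ModularCurve

namespace Fermat.Agent.GS.SubQ

open Fermat.Agent.GH Fermat.Agent.GH.S32

variable {p : ℕ} {N : ℕ} [NeZero N] {S : Finset ℕ}
  {𝒪 : Type} [CommRing 𝒪] [IsDomain 𝒪] [IsDiscreteValuationRing 𝒪]
  [IsAdicComplete (IsLocalRing.maximalIdeal 𝒪) 𝒪]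
  {θ : CuspForm.heckeAlgebra N 2 (↑S : Set ℕ) →+* IsLocalRing.ResidueField 𝒪}
  {T : Type} [CommRing T] [IsLocalRing T] [IsNoetherianRing T]
  [IsAdicComplete (IsLocalRing.maximalIdeal T) T] [Algebra 𝒪 T] [IsLocalHom (algebraMap 𝒪 T)]
  [Module.Finite 𝒪 T] [Module.Free 𝒪 T]

/-- **[SUBQ]**, gate-free and with NO hypothesis on `p ∣ N`: every finite level `V ⧸ I • ⊤` of a
Hecke–Galois datum of level `N` away from `S` (`p ∈ S` odd, the primes of `N` in `S`) is a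
`G_ℚ`-equivariant subquotient of a finite power of `J₀(N)[p^n]` for some `n`. -/
theorem isSubquotPow_levelAction_of_mem
    [Finite (IsLocalRing.ResidueField 𝒪)] [CharZero 𝒪]
    (hp : p.Prime) (hp2 : p ≠ 2) (hp𝒪 : (p : 𝒪) ∈ IsLocalRing.maximalIdeal 𝒪)
    (hpS : p ∈ S) (hNS : ∀ q : ℕ, q.Prime → q ∣ N → q ∈ S)
    (H : CuspForm.HeckeGaloisRepDatum N (↑S : Set ℕ) 𝒪 θ T) (I : Ideal T) [Finite (T ⧸ I)] :
    ∃ n : ℕ, IsSubquotPow
      (fun (σ : AlgebraicClosure ℚ ≃ₐ[ℚ] AlgebraicClosure ℚ)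
          (x : ↥(Submodule.torsionBy ℤ (JZero N) ((p : ℤ) ^ n))) =>
        GH.Top.torsAct N ((p : ℤ) ^ n) σ x)
      (fun (σ : AlgebraicClosure ℚ ≃ₐ[ℚ] AlgebraicClosure ℚ)
          (v : H.ρ.V ⧸ (I • (⊤ : Submodule T H.ρ.V))) => H.ρ.levelAction I σ v) :=
  haveI : Fact p.Prime := ⟨hp⟩
  Fermat.Agent.GH.S32.Top.isSubquotPow_levelAction
    (Fermat.Agent.GJ.Tate.S30Final.k18sPow_of_aux Fermat.Agent.GJ.J1.K18sAllFinal.k18sAux)
    (Fermat.Agent.GJ.Tate.S30Top.towerGate_of_towerGateC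
      (Fermat.Agent.GJ.Tate.TowerGateCInst.towerGateC p N S))
    hp hp2 hp𝒪 hpS hNS H I

end Fermat.Agent.GS.SubQ
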