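/-
CELL-S / GATE-S node [SUBQ] (helper69): the Tate side of S32 at a prime `p` DIVIDING the level.

`GH/S32/Top.isSubquotPow_levelAction` (helper47) never uses `p ∤ N`: with GATE-J's two gates plugged
exactly as in `GH/S32/Final.s32_of_s19`, every finite level `V ⧸ I • ⊤` of the representation of a
Hecke–Galois datum of level `N` (any `N`, in particular `p ∣ N`) is a `G_ℚ`-equivariant
subquotient of a finite power of `J₀(N)[p^n]`.
-/
import Fermat.Agent.GH.S32.Final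

set_option autoImplicit false

open CuspForm ModularCurve

namespace Fermat.Agent.GS.SubqAtP

open Fermat.Agent.Common_helper32 Fermat.Agent.GH Fermat.Agent.GH.S32

variable {p : ℕ} {N : ℕ} [NeZero N] {S : Finset ℕ}
  {𝒪 : Type} [CommRing 𝒪] [IsDomain 𝒪] [IsDiscreteValuationRing 𝒪]
  [IsAdicComplete (IsLocalRing.maximalIdeal 𝒪) 𝒪]
  {θ : CuspForm.heckeAlgebra N 2 (↑S : Set ℕ) →+* IsLocalRing.ResidueField 𝒪}
  {T : Type} [CommRing T] [IsLocalRing T] [IsNoetherianRing T]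
  [IsAdicComplete (IsLocalRing.maximalIdeal T) T] [Algebra 𝒪 T] [IsLocalHom (algebraMap 𝒪 T)]
  [Module.Finite 𝒪 T] [Module.Free 𝒪 T]

/-- **[SUBQ], binder-free, no hypothesis `p ∤ N`.**  Every finite level of the representation of a
Hecke–Galois datum of level `N` is an equivariant subquotient of a finite power of
`J₀(N)[p^n]`. -/
theorem isSubquotPow_levelAction
    [Finite (IsLocalRing.ResidueField 𝒪)] [CharZero 𝒪]
    (hp : p.Prime) (hp2 : p ≠ 2) (hp𝒪 : (p : 𝒪) ∈ IsLocalRing.maximalIdeal 𝒪)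
    (hpS : p ∈ S) (hNS : ∀ q : ℕ, q.Prime → q ∣ N → q ∈ S)
    (H : CuspForm.HeckeGaloisRepDatum N (↑S : Set ℕ) 𝒪 θ T) (I : Ideal T) [Finite (T ⧸ I)] :
    ∃ n : ℕ, IsSubquotPow
      (fun (σ : GQ) (x : ↥(Submodule.torsionBy ℤ (JZero N) ((p : ℤ) ^ n))) =>
        GH.Top.torsAct N ((p : ℤ) ^ n) σ x)
      (fun (σ : GQ) (v : H.ρ.V ⧸ (I • (⊤ : Submodule T H.ρ.V))) => H.ρ.levelAction I σ v) := by
  have : Fact p.Prime := ⟨hp⟩
  exact Fermat.Agent.GH.S32.Top.isSubquotPow_levelAction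
    (Fermat.Agent.GJ.Tate.S30Final.k18sPow_of_aux Fermat.Agent.GJ.J1.K18sAllFinal.k18sAux)
    (Fermat.Agent.GJ.Tate.S30Top.towerGate_of_towerGateC
      (Fermat.Agent.GJ.Tate.TowerGateCInst.towerGateC p N S))
    hp hp2 hp𝒪 hpS hNS H I

/-- the same in the binders of the frozen S33 (`p ∣ N`, `p² ∤ N` not even needed). -/
theorem isSubquotPow_levelAction_s33
    [Finite (IsLocalRing.ResidueField 𝒪)] [CharZero 𝒪]
    (hp : p.Prime) (hp2 : p ≠ 2) (hp𝒪 : (p : 𝒪) ∈ IsLocalRing.maximalIdeal 𝒪)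
    (hN : p ∣ N ∧ ¬ p ^ 2 ∣ N) (hNS : ∀ q : ℕ, q.Prime → q ∣ N → q ∈ S)
    (H : CuspForm.HeckeGaloisRepDatum N (↑S : Set ℕ) 𝒪 θ T) (I : Ideal T) [Finite (T ⧸ I)] :
    ∃ n : ℕ, IsSubquotPow
      (fun (σ : GQ) (x : ↥(Submodule.torsionBy ℤ (JZero N) ((p : ℤ) ^ n))) =>
        GH.Top.torsAct N ((p : ℤ) ^ n) σ x)
      (fun (σ : GQ) (v : H.ρ.V ⧸ (I • (⊤ : Submodule T H.ρ.V))) => H.ρ.levelAction I σ v) :=
  isSubquotPow_levelAction hp hp2 hp𝒪 (hNS p hp hN.1) hNS H I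

end Fermat.Agent.GS.SubqAtP
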